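import Mathlib

/-!
# S51, piece (P): the X₀(15) algebra

Short Weierstrass data `A B : ℚ`, a rational 3-torsion abscissa `x` (a root of `ψ₃`), and the
elementary symmetric functions `s t` of a rational 5-cycle of abscissae.  We show that such data
produce a rational point on `Y² = X (X + 9) (X - 16)` and, given the list of rational points of
that curve, pin down the `j`-invariant.
-/

set_option autoImplicit false

namespace Fermat.Agent.S51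

/-- Certificate: the `X₀(5)` parameter `T = (4A - 7s² + 40t)/(s² - 4t)` satisfies
`j T = (T² + 10 T + 5)³` (denominators cleared, `4B = s (s² - 6t - 2A)` substituted). -/
theorem cert_jT (A s t : ℚ)
    (hQ : A ^ 2 + 2 * A * (s ^ 2 - t) - s ^ 4 + 5 * s ^ 2 * t + 5 * t ^ 2 = 0) :
    16 * 6912 * A ^ 3 * (4 * A - 7 * s ^ 2 + 40 * t) * (s ^ 2 - 4 * t) ^ 5 =
      ((4 * A - 7 * s ^ 2 + 40 * t) ^ 2 + 10 * (4 * A - 7 * s ^ 2 + 40 * t) * (s ^ 2 - 4 * t)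
          + 5 * (s ^ 2 - 4 * t) ^ 2) ^ 3 *
        (64 * A ^ 3 + 27 * (s * (s ^ 2 - 6 * t - 2 * A)) ^ 2) := by
  linear_combination
    (-110592*s^14 - 110592*A*s^12 + 2433024*s^12*t + 552960*A^2*s^10 + 5861376*A*s^10*t - 18911232*s^10*t^2 + 733184*A^3*s^8 - 5750784*A^2*s^8*t - 77303808*A*s^8*t^2 + 54190080*s^8*t^3 - 1421312*A^4*s^6 - 25690112*A^3*s^6*t - 45342720*A^2*s^6*t^2 + 370704384*A*s^6*t^3 + 3870720*s^6*t^4 - 229376*A^5*s^4 + 13615104*A^4*s^4*t + 217251840*A^3*s^4*t^2 + 680361984*A^2*s^4*t^3 - 446791680*A*s^4*t^4 - 165888000*s^4*t^5 + 868352*A^6*s^2 + 15695872*A^5*s^2*t + 49987584*A^4*s^2*t^2 - 382926848*A^3*s^2*t^3 - 1924743168*A^2*s^2*t^4 - 703365120*A*s^2*t^5 - 99532800*s^2*t^6 - 262144*A^7 - 8388608*A^6*t - 98041856*A^5*t^2 - 494927872*A^4*t^3 - 912523264*A^3*t^4) * hQ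

/-- Certificate: the plane relation between `k = -(s² - 4t)/(9 (x² - s x + t))` and `T`
(denominators cleared). -/
theorem cert_kT (A x s t : ℚ)
    (hψ : 3 * x ^ 4 + 6 * A * x ^ 2 + 3 * x * (s * (s ^ 2 - 6 * t - 2 * A)) - A ^ 2 = 0)
    (hQ : A ^ 2 + 2 * A * (s ^ 2 - t) - s ^ 4 + 5 * s ^ 2 * t + 5 * t ^ 2 = 0) :
    -(4 * A - 7 * s ^ 2 + 40 * t) ^ 2 * (x ^ 2 - s * x + t) ^ 3
      + 3 * (s ^ 2 - 4 * t) ^ 2 * (4 * A - 7 * s ^ 2 + 40 * t) * (x ^ 2 - s * x + t) ^ 2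
      - 13 * (4 * A - 7 * s ^ 2 + 40 * t) * (x ^ 2 - s * x + t) ^ 3 * (s ^ 2 - 4 * t)
      - (s ^ 2 - 4 * t) ^ 5 - 6 * (s ^ 2 - 4 * t) ^ 4 * (x ^ 2 - s * x + t)
      + 24 * (s ^ 2 - 4 * t) ^ 3 * (x ^ 2 - s * x + t) ^ 2
      - 26 * (s ^ 2 - 4 * t) ^ 2 * (x ^ 2 - s * x + t) ^ 3
      + 9 * (x ^ 2 - s * x + t) ^ 4 * (s ^ 2 - 4 * t) = 0 := by
  linear_combination
    (3*x^4*s^2 - 12*x^3*s^3 + 18*x^2*s^4 - 15*x*s^5 + 5*s^6 + 6*A*x^2*s^2 - 6*A*x*s^3 + 2*A*s^4 - 12*x^4*t + 48*x^3*s*t - 72*x^2*s^2*t + 78*x*s^3*t - 33*s^4*t - 24*A*x^2*t + 24*A*x*s*t - 10*A*s^2*t - 72*x*s*t^2 + 57*s^2*t^2 + 8*A*t^2 - 20*t^3) * hψ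
    + (-16*x^6 + 48*x^5*s - 81*x^4*s^2 + 76*x^3*s^3 - 42*x^2*s^4 + 9*x*s^5 + s^6 + 6*A*x^2*s^2 - 6*A*x*s^3 + 2*A*s^4 + 84*x^4*t - 144*x^3*s*t + 144*x^2*s^2*t - 42*x*s^3*t - 9*s^4*t - 24*A*x^2*t + 24*A*x*s*t - 10*A*s^2*t - 144*x^2*t^2 + 72*x*s*t^2 + 21*s^2*t^2 + 8*A*t^2 - 20*t^3) * hQ


/-- The discriminant identity behind the rational point on `Y² = X (X + 9) (X - 16)`. -/
theorem disc_kT (k T : ℚ)
    (h : k * T ^ 2 + (27 * k ^ 2 + 13 * k) * T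
      - (729 * k ^ 4 - 486 * k ^ 3 - 216 * k ^ 2 - 26 * k - 1) = 0) :
    (2 * k * T + 27 * k ^ 2 + 13 * k) ^ 2 = (9 * k - 1) ^ 2 * (k * (36 * k ^ 2 - 7 * k - 4)) := by
  linear_combination 4 * k * h

/-- Exclusion of the rational node `(k, T) = (1/9, -8)` of the plane model. -/
theorem no_node (A x s t : ℚ)
    (hQ : A ^ 2 + 2 * A * (s ^ 2 - t) - s ^ 4 + 5 * s ^ 2 * t + 5 * t ^ 2 = 0)
    (hd : s ^ 2 - 4 * t ≠ 0)
    (hde : s ^ 2 - 4 * t = -(x ^ 2 - s * x + t))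
    (hN : 4 * A - 7 * s ^ 2 + 40 * t = -8 * (s ^ 2 - 4 * t)) : False := by
  have hA : A = -(s ^ 2 + 8 * t) / 4 := by linarith
  subst hA
  have h1 : (s ^ 2 - 4 * t) * (23 * s ^ 2 + 52 * t) = 0 := by linear_combination (-16) * hQ
  have h2 : 23 * s ^ 2 + 52 * t = 0 := by
    rcases mul_eq_zero.mp h1 with h | h
    · exact absurd h hd
    · exact h
  have h3 : 52 * (x - s / 2) ^ 2 + 108 * s ^ 2 = 0 := by linear_combination 52 * hde + 3 * h2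
  have hs : s = 0 := by
    have h4 : 0 ≤ 52 * (x - s / 2) ^ 2 := by positivity
    have h5 : s ^ 2 ≤ 0 := by nlinarith
    exact pow_eq_zero_iff (two_ne_zero) |>.mp (le_antisymm h5 (sq_nonneg s))
  subst hs
  apply hd
  linarith

/-- **Core of piece (P)** in short Weierstrass form: from a rational 3-torsion abscissa and a
rational 5-cycle, the `X₀(5)` parameter `T` is one of four explicit values. -/
theorem short_core (A B x s t : ℚ)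
    (hΔ : 4 * A ^ 3 + 27 * B ^ 2 ≠ 0)
    (hψ : 3 * x ^ 4 + 6 * A * x ^ 2 + 12 * B * x - A ^ 2 = 0)
    (hB : 4 * B = s * (s ^ 2 - 6 * t - 2 * A))
    (hQ : A ^ 2 + 2 * A * (s ^ 2 - t) - s ^ 4 + 5 * s ^ 2 * t + 5 * t ^ 2 = 0)
    (hd : s ^ 2 - 4 * t ≠ 0) (he : x ^ 2 - s * x + t ≠ 0)
    (descent : ∀ X Y : ℚ, Y ^ 2 = X * (X + 9) * (X - 16) →
      X = 0 ∨ X = -9 ∨ X = 16 ∨ X = -4 ∨ X = 36) :
    ∃ T : ℚ, (T = -40 ∨ T = -10 ∨ T = -25 / 8 ∨ T = -25 / 2) ∧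
      6912 * A ^ 3 * T = (T ^ 2 + 10 * T + 5) ^ 3 * (4 * A ^ 3 + 27 * B ^ 2) := by
  have hψ' : 3 * x ^ 4 + 6 * A * x ^ 2 + 3 * x * (s * (s ^ 2 - 6 * t - 2 * A)) - A ^ 2 = 0 := by
    rw [← hB]; linear_combination hψ
  have c1 := cert_jT A s t hQ
  have c2 := cert_kT A x s t hψ' hQ
  rw [← hB] at c1
  obtain ⟨d, hd_def⟩ : ∃ d : ℚ, d = s ^ 2 - 4 * t := ⟨_, rfl⟩
  obtain ⟨e, he_def⟩ : ∃ e : ℚ, e = x ^ 2 - s * x + t := ⟨_, rfl⟩
  obtain ⟨N, hN_def⟩ : ∃ N : ℚ, N = 4 * A - 7 * s ^ 2 + 40 * t := ⟨_, rfl⟩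
  rw [← hd_def, ← hN_def] at c1
  rw [← hd_def, ← he_def, ← hN_def] at c2
  rw [← hd_def] at hd
  rw [← he_def] at he
  -- the two parameters
  obtain ⟨T, hT⟩ : ∃ T : ℚ, T = N / d := ⟨_, rfl⟩
  obtain ⟨k, hk⟩ : ∃ k : ℚ, k = -d / (9 * e) := ⟨_, rfl⟩
  have hNT : N = T * d := by rw [hT, div_mul_cancel₀ _ hd]
  have hdk : d = -9 * e * k := by
    rw [hk, div_eq_mul_inv, mul_inv]
    have h9 : (9 : ℚ) ≠ 0 := by norm_num
    field_simp
  have hjT : 6912 * A ^ 3 * T = (T ^ 2 + 10 * T + 5) ^ 3 * (4 * A ^ 3 + 27 * B ^ 2) := by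
    have h6 : d ^ 6 ≠ 0 := pow_ne_zero 6 hd
    apply mul_right_cancel₀ h6
    rw [hNT] at c1
    linear_combination (1 / 16 : ℚ) * c1
  have hT0 : T ≠ 0 := by
    intro h0
    rw [h0] at hjT
    apply hΔ
    have : (125 : ℚ) * (4 * A ^ 3 + 27 * B ^ 2) = 0 := by linear_combination -hjT
    exact (mul_eq_zero.mp this).resolve_left (by norm_num)
  have hk0 : k ≠ 0 := by
    intro h0
    apply hd
    rw [hdk, h0, mul_zero]
  have hkT : k * T ^ 2 + (27 * k ^ 2 + 13 * k) * T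
      - (729 * k ^ 4 - 486 * k ^ 3 - 216 * k ^ 2 - 26 * k - 1) = 0 := by
    have h9 : (9 : ℚ) * e ^ 5 * k ≠ 0 :=
      mul_ne_zero (mul_ne_zero (by norm_num) (pow_ne_zero 5 he)) hk0
    apply mul_left_cancel₀ h9
    rw [hNT, hdk] at c2
    linear_combination (-1 / 9 : ℚ) * c2
  refine ⟨T, ?_, hjT⟩
  by_cases h91 : 9 * k - 1 = 0
  · -- the node: impossible
    exfalso
    have hk9 : k = 1 / 9 := by linarith
    have hT8 : (T + 8) ^ 2 = 0 := by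
      rw [hk9] at hkT
      linear_combination 9 * hkT
    have hT8' : T = -8 := by
      have := pow_eq_zero_iff (two_ne_zero) |>.mp hT8
      linarith
    refine no_node A x s t hQ (hd_def ▸ hd) ?_ ?_
    · rw [← hd_def, ← he_def, hdk, hk9]; ring
    · rw [← hd_def, ← hN_def, hNT, hT8']
  · have hY : (36 * (2 * k * T + 27 * k ^ 2 + 13 * k) / (9 * k - 1)) ^ 2
        = (36 * k) * (36 * k + 9) * (36 * k - 16) := by
      have hdisc := disc_kT k T hkT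
      rw [div_pow, div_eq_iff (pow_ne_zero 2 h91)]
      linear_combination 1296 * hdisc
    rcases descent _ _ hY with h | h | h | h | h
    · exact absurd (by linarith : k = 0) hk0
    · -- k = -1/4
      have hk' : k = -1 / 4 := by linarith
      have hsq : (8 * T + 25) ^ 2 = 0 := by
        rw [hk'] at hkT
        linear_combination (-256) * hkT
      have := pow_eq_zero_iff (two_ne_zero) |>.mp hsq
      right; right; left; linarith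
    · -- k = 4/9
      have hk' : k = 4 / 9 := by linarith
      have hsq : (2 * T + 25) ^ 2 = 0 := by
        rw [hk'] at hkT
        linear_combination 9 * hkT
      have := pow_eq_zero_iff (two_ne_zero) |>.mp hsq
      right; right; right; linarith
    · -- k = -1/9
      have hk' : k = -1 / 9 := by linarith
      have hsq : T * (T + 10) = 0 := by
        rw [hk'] at hkT
        linear_combination (-9) * hkT
      rcases mul_eq_zero.mp hsq with h0 | h0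
      · exact absurd h0 hT0
      · right; left; linarith
    · -- k = 1
      have hk' : k = 1 := by linarith
      have hsq : T * (T + 40) = 0 := by
        rw [hk'] at hkT
        linear_combination hkT
      rcases mul_eq_zero.mp hsq with h0 | h0
      · exact absurd h0 hT0
      · left; linarith

theorem prime_five_int : Prime (5 : ℤ) := Int.prime_iff_natAbs_prime.2 (by norm_num)

/-- `a c³ = 5 b D` with `5 ∤ a`, `5 ∤ b` forces `5 ∣ c` and `5 ∣ D`. -/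
theorem five_dvd_both_one (a b c D : ℤ) (h : a * c ^ 3 = 5 * b * D)
    (ha : ¬ (5 : ℤ) ∣ a) (hb : ¬ (5 : ℤ) ∣ b) : (5 : ℤ) ∣ c ∧ (5 : ℤ) ∣ D := by
  have hp := prime_five_int
  have h1 : (5 : ℤ) ∣ a * c ^ 3 := ⟨b * D, by rw [h]; ring⟩
  have hc : (5 : ℤ) ∣ c :=
    hp.dvd_of_dvd_pow ((hp.dvd_or_dvd h1).resolve_left ha)
  refine ⟨hc, ?_⟩
  obtain ⟨m, rfl⟩ := hc
  have h2 : b * D = 5 * (5 * a * m ^ 3) := by
    have : (5 : ℤ) * (b * D) = 5 * (5 * (5 * a * m ^ 3)) := by linear_combination -h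
    exact mul_left_cancel₀ (by norm_num) this
  have h3 : (5 : ℤ) ∣ b * D := ⟨_, h2⟩
  exact (hp.dvd_or_dvd h3).resolve_left hb

/-- `a c³ = 25 b D` with `5 ∤ a`, `5 ∤ b` forces `5 ∣ c` and `5 ∣ D`. -/
theorem five_dvd_both_two (a b c D : ℤ) (h : a * c ^ 3 = 25 * b * D)
    (ha : ¬ (5 : ℤ) ∣ a) (hb : ¬ (5 : ℤ) ∣ b) : (5 : ℤ) ∣ c ∧ (5 : ℤ) ∣ D := by
  have hp := prime_five_int
  have h1 : (5 : ℤ) ∣ a * c ^ 3 := ⟨5 * b * D, by rw [h]; ring⟩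
  have hc : (5 : ℤ) ∣ c :=
    hp.dvd_of_dvd_pow ((hp.dvd_or_dvd h1).resolve_left ha)
  refine ⟨hc, ?_⟩
  obtain ⟨m, rfl⟩ := hc
  have h2 : b * D = 5 * (a * m ^ 3) := by
    have : (25 : ℤ) * (b * D) = 25 * (5 * (a * m ^ 3)) := by linear_combination -h
    exact mul_left_cancel₀ (by norm_num) this
  have h3 : (5 : ℤ) ∣ b * D := ⟨_, h2⟩
  exact (hp.dvd_or_dvd h3).resolve_left hb

/-- The four exceptional `j`-invariants are incompatible with semistability at `5`. -/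
theorem no_semistable_of_T (c D : ℤ) (T : ℚ)
    (hT : T = -40 ∨ T = -10 ∨ T = -25 / 8 ∨ T = -25 / 2)
    (h : (c : ℚ) ^ 3 * T = (T ^ 2 + 10 * T + 5) ^ 3 * (D : ℚ)) :
    (5 : ℤ) ∣ c ∧ (5 : ℤ) ∣ D := by
  rcases hT with rfl | rfl | rfl | rfl
  · -- T = -40 :  -8 c³ = 25 · 241³ · D
    have h' : (-8 : ℤ) * c ^ 3 = 25 * 241 ^ 3 * D := by
      have : ((-8 : ℤ) * c ^ 3 : ℚ) = ((25 * 241 ^ 3 * D : ℤ) : ℚ) := by
        push_cast; linear_combination (1 / 5 : ℚ) * h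
      exact_mod_cast this
    exact five_dvd_both_two (-8) (241 ^ 3) c D h' (by norm_num) (by norm_num)
  · -- T = -10 :  -2 c³ = 25 D
    have h' : (-2 : ℤ) * c ^ 3 = 25 * 1 * D := by
      have : ((-2 : ℤ) * c ^ 3 : ℚ) = ((25 * 1 * D : ℤ) : ℚ) := by
        push_cast; linear_combination (1 / 5 : ℚ) * h
      exact_mod_cast this
    exact five_dvd_both_two (-2) 1 c D h' (by norm_num) (by norm_num)
  · -- T = -25/8 :  2^15 c³ = 5 · 211³ · D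
    have h' : (32768 : ℤ) * c ^ 3 = 5 * 211 ^ 3 * D := by
      have : ((32768 : ℤ) * c ^ 3 : ℚ) = ((5 * 211 ^ 3 * D : ℤ) : ℚ) := by
        push_cast; linear_combination (-262144 / 25 : ℚ) * h
      exact_mod_cast this
    exact five_dvd_both_one 32768 (211 ^ 3) c D h' (by norm_num) (by norm_num)
  · -- T = -25/2 :  -32 c³ = 5 · 29³ · D
    have h' : (-32 : ℤ) * c ^ 3 = 5 * 29 ^ 3 * D := by
      have : ((-32 : ℤ) * c ^ 3 : ℚ) = ((5 * 29 ^ 3 * D : ℤ) : ℚ) := by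
        push_cast; linear_combination (64 / 25 : ℚ) * h
      exact_mod_cast this
    exact five_dvd_both_one (-32) (29 ^ 3) c D h' (by norm_num) (by norm_num)

/-- In short form, a rational 3-torsion abscissa is never an abscissa of the 5-cycle. -/
theorem short_e_ne_zero (A B x s t : ℚ)
    (hΔ : 4 * A ^ 3 + 27 * B ^ 2 ≠ 0)
    (hψ : 3 * x ^ 4 + 6 * A * x ^ 2 + 12 * B * x - A ^ 2 = 0)
    (hB : 4 * B = s * (s ^ 2 - 6 * t - 2 * A))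
    (hQ : A ^ 2 + 2 * A * (s ^ 2 - t) - s ^ 4 + 5 * s ^ 2 * t + 5 * t ^ 2 = 0)
    (hd : s ^ 2 - 4 * t ≠ 0) : x ^ 2 - s * x + t ≠ 0 := by
  intro he
  have ht : t = x * (s - x) := by linarith
  subst ht
  have hR1 : (x ^ 4 - 2 * A * x ^ 2 - 8 * B * x + A ^ 2)
      - 4 * (s - x) * (x ^ 3 + A * x + B) = 0 := by
    linear_combination -(x + s) * hB + hQ
  have hs2x : s - 2 * x ≠ 0 := by
    intro h0
    apply hd
    have : s = 2 * x := by linarith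
    rw [this]; ring
  have hf : x ^ 3 + A * x + B = 0 := by
    have h4 : (s - 2 * x) * (4 * (x ^ 3 + A * x + B)) = 0 := by
      linear_combination -hR1 - hψ
    rcases mul_eq_zero.mp h4 with h | h
    · exact absurd h hs2x
    · linarith
  have hN : x ^ 4 - 2 * A * x ^ 2 - 8 * B * x + A ^ 2 = 0 := by
    linear_combination -hψ + 4 * x * hf
  have hx : x = 0 := by
    have h3 : (3 * (4 * A ^ 3 + 27 * B ^ 2)) * x = 0 := by
      linear_combination (9 * A ^ 2 - (3 * A * x - 9 * B) * x) * hf + (3 * A * x - 9 * B) * hN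
    rcases mul_eq_zero.mp h3 with h | h
    · exact absurd (by linarith : 4 * A ^ 3 + 27 * B ^ 2 = 0) hΔ
    · exact h
  subst hx
  have hB0 : B = 0 := by linear_combination hf
  have hA0 : A = 0 := by
    have : A ^ 2 = 0 := by linear_combination hN
    exact pow_eq_zero_iff (two_ne_zero) |>.mp this
  apply hΔ
  rw [hA0, hB0]; ring

/-- **Pieces (P) + (F), rational form.**  Let `W` be an integral Weierstrass model with `Δ ≠ 0`
which is semistable at `5`.  A rational root `x3` of the 3-division polynomial together with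
rational `s, t` satisfying the two symmetric "5-cycle" relations (the elementary symmetric
functions of `x(P), x(2P)` for `P` of order `5`) contradict the list of rational points of
`Y² = X (X + 9) (X - 16)`. -/
theorem rational_core
    (W : WeierstrassCurve ℤ) (hΔ : W.Δ ≠ 0)
    (h5 : (5 : ℤ) ∣ W.Δ → ¬ (5 : ℤ) ∣ W.c₄)
    (x3 s t : ℚ)
    (h3 : 3 * x3 ^ 4 + (W.b₂ : ℚ) * x3 ^ 3 + 3 * (W.b₄ : ℚ) * x3 ^ 2
      + 3 * (W.b₆ : ℚ) * x3 + (W.b₈ : ℚ) = 0)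
    (hd : s ^ 2 - 4 * t ≠ 0)
    (hU : s ^ 3 - 6 * s * t - (W.b₂ : ℚ) * t - (W.b₄ : ℚ) * s - (W.b₆ : ℚ) = 0)
    (hV : s ^ 4 - 8 * s ^ 2 * t + 10 * t ^ 2 - (W.b₂ : ℚ) * s * t - (W.b₄ : ℚ) * s ^ 2
      - 2 * (W.b₄ : ℚ) * t - 3 * (W.b₆ : ℚ) * s - 2 * (W.b₈ : ℚ) = 0)
    (descent : ∀ X Y : ℚ, Y ^ 2 = X * (X + 9) * (X - 16) →
      X = 0 ∨ X = -9 ∨ X = 16 ∨ X = -4 ∨ X = 36) : False := by
  -- integer relations among the invariants
  have hb8 : (4 : ℚ) * (W.b₈ : ℚ) = (W.b₂ : ℚ) * (W.b₆ : ℚ) - (W.b₄ : ℚ) ^ 2 := by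
    exact_mod_cast W.b_relation
  have hc4 : (W.c₄ : ℚ) = (W.b₂ : ℚ) ^ 2 - 24 * (W.b₄ : ℚ) := by
    rw [WeierstrassCurve.c₄]; push_cast; ring
  have hc6 : (W.c₆ : ℚ) = -(W.b₂ : ℚ) ^ 3 + 36 * (W.b₂ : ℚ) * (W.b₄ : ℚ) - 216 * (W.b₆ : ℚ) := by
    rw [WeierstrassCurve.c₆]; push_cast; ring
  have hcΔ : (1728 : ℚ) * (W.Δ : ℚ) = (W.c₄ : ℚ) ^ 3 - (W.c₆ : ℚ) ^ 2 := by
    exact_mod_cast W.c_relation
  have hΔq : (W.Δ : ℚ) ≠ 0 := by exact_mod_cast hΔ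
  -- name the rational invariants
  obtain ⟨b2, hb2⟩ : ∃ b : ℚ, b = (W.b₂ : ℚ) := ⟨_, rfl⟩
  obtain ⟨b4, hb4⟩ : ∃ b : ℚ, b = (W.b₄ : ℚ) := ⟨_, rfl⟩
  obtain ⟨b6, hb6⟩ : ∃ b : ℚ, b = (W.b₆ : ℚ) := ⟨_, rfl⟩
  obtain ⟨b8, hb8'⟩ : ∃ b : ℚ, b = (W.b₈ : ℚ) := ⟨_, rfl⟩
  rw [← hb2, ← hb4, ← hb6, ← hb8'] at h3 hb8 hV
  rw [← hb2, ← hb4, ← hb6] at hU
  rw [← hb2, ← hb4] at hc4
  rw [← hb2, ← hb4, ← hb6] at hc6
  -- pass to the short Weierstrass form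
  obtain ⟨A, hA⟩ : ∃ A : ℚ, A = -(b2 ^ 2 - 24 * b4) / 48 := ⟨_, rfl⟩
  obtain ⟨B, hB⟩ : ∃ B : ℚ, B = -(-b2 ^ 3 + 36 * b2 * b4 - 216 * b6) / 864 := ⟨_, rfl⟩
  have hΔ' : 4 * A ^ 3 + 27 * B ^ 2 = -(W.Δ : ℚ) / 16 := by
    have hcΔ' := hcΔ
    rw [hc4, hc6] at hcΔ'
    rw [hA, hB]; linear_combination (1 / 27648 : ℚ) * hcΔ'
  have hΔne : 4 * A ^ 3 + 27 * B ^ 2 ≠ 0 := by
    rw [hΔ']; exact div_ne_zero (neg_ne_zero.mpr hΔq) (by norm_num)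
  have sψ : 3 * (x3 + b2 / 12) ^ 4 + 6 * A * (x3 + b2 / 12) ^ 2 + 12 * B * (x3 + b2 / 12)
      - A ^ 2 = 0 := by
    rw [hA, hB]; linear_combination h3 - (1 / 4 : ℚ) * hb8
  have sB : 4 * B = (s + b2 / 6) * ((s + b2 / 6) ^ 2 - 6 * (t + b2 / 12 * s + b2 ^ 2 / 144)
      - 2 * A) := by
    rw [hA, hB]; linear_combination -hU
  have sQ : A ^ 2 + 2 * A * ((s + b2 / 6) ^ 2 - (t + b2 / 12 * s + b2 ^ 2 / 144))
      - (s + b2 / 6) ^ 4 + 5 * (s + b2 / 6) ^ 2 * (t + b2 / 12 * s + b2 ^ 2 / 144)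
      + 5 * (t + b2 / 12 * s + b2 ^ 2 / 144) ^ 2 = 0 := by
    rw [hA]; linear_combination (1 / 2 : ℚ) * hV + (1 / 4 : ℚ) * hb8
      - ((1 / 4 : ℚ) * b2 + (3 / 2 : ℚ) * s) * hU
  have sd : (s + b2 / 6) ^ 2 - 4 * (t + b2 / 12 * s + b2 ^ 2 / 144) ≠ 0 := by
    intro h0; apply hd; linear_combination h0
  have se := short_e_ne_zero A B (x3 + b2 / 12) (s + b2 / 6)
    (t + b2 / 12 * s + b2 ^ 2 / 144) hΔne sψ sB sQ sd
  obtain ⟨T, hT, hj⟩ := short_core A B (x3 + b2 / 12) (s + b2 / 6)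
    (t + b2 / 12 * s + b2 ^ 2 / 144) hΔne sψ sB sQ sd se descent
  -- back to the integral invariants
  have hA3 : (6912 : ℚ) * A ^ 3 = -(W.c₄ : ℚ) ^ 3 / 16 := by
    rw [hA, hc4]; ring
  have key : (W.c₄ : ℚ) ^ 3 * T = (T ^ 2 + 10 * T + 5) ^ 3 * (W.Δ : ℚ) := by
    rw [hΔ', hA3] at hj; linear_combination (-16 : ℚ) * hj
  obtain ⟨hc, hD⟩ := no_semistable_of_T W.c₄ W.Δ T hT key
  exact h5 hD hc

end Fermat.Agent.S51
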