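import Mathlib

/-!
# Descent core for S51 (piece D)

Main result `Fermat.Agent.S51.DescentCore.not_bad`:
there are no coprime positive integers `b c` such that
`(b^2 - c^2) * (b^2 - 81 c^2)` is a nonzero perfect square.

Equivalently: the elliptic curve `Y^2 = X (X - 1) (X - 81)` has no rational point with
`Y ≠ 0` whose `X`-coordinate is a rational square.
-/

namespace Fermat.Agent.S51.DescentCore

/-- `Bad b c`: coprime positive integers with `(b^2-c^2)(b^2-81c^2)` a nonzero square. -/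
def Bad (b c : ℤ) : Prop :=
  0 < b ∧ 0 < c ∧ IsCoprime b c ∧
    ∃ k : ℤ, k ≠ 0 ∧ (b ^ 2 - c ^ 2) * (b ^ 2 - 81 * c ^ 2) = k ^ 2

theorem sq_mod_sixteen (x : ℤ) :
    x ^ 2 % 16 = 0 ∨ x ^ 2 % 16 = 1 ∨ x ^ 2 % 16 = 4 ∨ x ^ 2 % 16 = 9 := by
  have h : x ^ 2 % 16 = (x % 16) ^ 2 % 16 := by rw [pow_two, pow_two, Int.mul_emod]
  have h1 : 0 ≤ x % 16 := Int.emod_nonneg _ (by norm_num)
  have h2 : x % 16 < 16 := Int.emod_lt_of_pos _ (by norm_num)
  rw [h]
  generalize x % 16 = r at *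
  interval_cases r <;> norm_num

theorem sq_mod_three (x : ℤ) : x ^ 2 % 3 = 0 ∨ x ^ 2 % 3 = 1 := by
  have h : x ^ 2 % 3 = (x % 3) ^ 2 % 3 := by rw [pow_two, pow_two, Int.mul_emod]
  have h1 : 0 ≤ x % 3 := Int.emod_nonneg _ (by norm_num)
  have h2 : x % 3 < 3 := Int.emod_lt_of_pos _ (by norm_num)
  rw [h]
  generalize x % 3 = r at *
  interval_cases r <;> norm_num

theorem dvd_of_sq_mod_three {x : ℤ} (h : x ^ 2 % 3 = 0) : (3 : ℤ) ∣ x := by
  have hp : Prime (3 : ℤ) := Int.prime_three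
  exact hp.dvd_of_dvd_pow (Int.dvd_of_emod_eq_zero h)

theorem pos_sq_of_coprime_mul {a b c : ℤ} (ha : 0 < a) (h : IsCoprime a b)
    (heq : a * b = c ^ 2) : ∃ a0 : ℤ, 0 < a0 ∧ a = a0 ^ 2 := by
  obtain ⟨a0, h0 | h0⟩ := Int.sq_of_isCoprime h heq
  · refine ⟨|a0|, ?_, by rw [sq_abs]; exact h0⟩
    have : a0 ≠ 0 := by
      rintro rfl
      simp at h0
      omega
    exact abs_pos.mpr this
  · exfalso
    nlinarith [sq_nonneg a0]

theorem exists_coprime_factor (x y : ℤ) (hx : x ≠ 0) :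
    ∃ g x' y' : ℤ, 0 < g ∧ x = g * x' ∧ y = g * y' ∧ IsCoprime x' y' := by
  have hg : 0 < Int.gcd x y := Int.gcd_pos_of_ne_zero_left _ hx
  refine ⟨Int.gcd x y, x / Int.gcd x y, y / Int.gcd x y, by exact_mod_cast hg, ?_, ?_, ?_⟩
  · exact (Int.mul_ediv_cancel' (Int.gcd_dvd_left ..)).symm
  · exact (Int.mul_ediv_cancel' (Int.gcd_dvd_right ..)).symm
  · rw [Int.isCoprime_iff_gcd_eq_one]
    exact Int.gcd_div_gcd_div_gcd hg


/-- Dividing out the gcd: from any positive pair with nonzero square value we get a `Bad` pair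
which is no larger. -/
theorem reduce (b c k : ℤ) (hb : 0 < b) (hc : 0 < c) (hk : k ≠ 0)
    (h : (b ^ 2 - c ^ 2) * (b ^ 2 - 81 * c ^ 2) = k ^ 2) :
    ∃ b' c' : ℤ, Bad b' c' ∧ b' ≤ b ∧ c' ≤ c := by
  obtain ⟨g, b', c', hg, rfl, rfl, hcop⟩ := exists_coprime_factor b c hb.ne'
  have hb' : 0 < b' := pos_of_mul_pos_right hb hg.le
  have hc' : 0 < c' := pos_of_mul_pos_right hc hg.le
  have hgk : g ^ 2 ∣ k := by
    rw [← Int.pow_dvd_pow_iff (n := 2) two_ne_zero, ← h]
    exact ⟨(b' ^ 2 - c' ^ 2) * (b' ^ 2 - 81 * c' ^ 2), by ring⟩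
  obtain ⟨k', rfl⟩ := hgk
  have hk' : k' ≠ 0 := by
    rintro rfl
    simp at hk
  have hg2 : (g ^ 2) ^ 2 ≠ 0 := by positivity
  refine ⟨b', c', ⟨hb', hc', hcop, k', hk', ?_⟩, ?_, ?_⟩
  · apply mul_left_cancel₀ hg2
    linear_combination h
  · nlinarith
  · nlinarith

/-- Dividing out the gcd in a class-one solution. -/
theorem normalize (U0 Z0 V0 W0 : ℤ) (hU : 0 < U0) (hZ : 0 < Z0) (hV : 0 < V0) (hW : 0 < W0)
    (h1 : U0 ^ 2 - Z0 ^ 2 = V0 ^ 2) (h2 : U0 ^ 2 - 81 * Z0 ^ 2 = W0 ^ 2) :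
    ∃ U Z V W : ℤ, 0 < U ∧ 0 < Z ∧ 0 < V ∧ 0 < W ∧ IsCoprime U Z ∧
      U ^ 2 - Z ^ 2 = V ^ 2 ∧ U ^ 2 - 81 * Z ^ 2 = W ^ 2 ∧ U ≤ U0 := by
  obtain ⟨g, U, Z, hg, rfl, rfl, hcop⟩ := exists_coprime_factor U0 Z0 hU.ne'
  have hUpos : 0 < U := pos_of_mul_pos_right hU hg.le
  have hZpos : 0 < Z := pos_of_mul_pos_right hZ hg.le
  have hgV : g ∣ V0 := by
    rw [← Int.pow_dvd_pow_iff (n := 2) two_ne_zero, ← h1]
    exact ⟨U ^ 2 - Z ^ 2, by ring⟩
  have hgW : g ∣ W0 := by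
    rw [← Int.pow_dvd_pow_iff (n := 2) two_ne_zero, ← h2]
    exact ⟨U ^ 2 - 81 * Z ^ 2, by ring⟩
  obtain ⟨V, rfl⟩ := hgV
  obtain ⟨W, rfl⟩ := hgW
  have hg2 : g ^ 2 ≠ 0 := by positivity
  refine ⟨U, Z, V, W, hUpos, hZpos, pos_of_mul_pos_right hV hg.le,
    pos_of_mul_pos_right hW hg.le, hcop, ?_, ?_, ?_⟩
  · apply mul_left_cancel₀ hg2
    linear_combination h1
  · apply mul_left_cancel₀ hg2
    linear_combination h2
  · nlinarith

/-- If a product of two integers is a nonzero square, both are `± g * square` for a common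
`g = gcd` and a common sign. -/
theorem class_decomp (A₁ A₂ k : ℤ) (hk : k ≠ 0) (h : A₁ * A₂ = k ^ 2) :
    ∃ (g ε s t : ℤ), 0 < g ∧ g ∣ A₁ ∧ g ∣ A₂ ∧ (ε = 1 ∨ ε = -1) ∧ 0 < s ∧ 0 < t ∧
      A₁ = ε * g * s ^ 2 ∧ A₂ = ε * g * t ^ 2 := by
  have hA₁ : A₁ ≠ 0 := by
    rintro rfl
    rw [zero_mul] at h
    exact hk (pow_eq_zero_iff two_ne_zero |>.mp h.symm)
  obtain ⟨g, a₁, a₂, hg, rfl, rfl, hcop⟩ := exists_coprime_factor A₁ A₂ hA₁
  have hgk : g ∣ k := by
    rw [← Int.pow_dvd_pow_iff (n := 2) two_ne_zero, ← h]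
    exact ⟨a₁ * a₂, by ring⟩
  obtain ⟨k', rfl⟩ := hgk
  have hk' : k' ≠ 0 := by
    rintro rfl
    simp at hk
  have hg2 : g ^ 2 ≠ 0 := by positivity
  have h' : a₁ * a₂ = k' ^ 2 := by
    apply mul_left_cancel₀ hg2
    linear_combination h
  have hk'pos : 0 < k' ^ 2 := by positivity
  obtain ⟨s, hs | hs⟩ := Int.sq_of_isCoprime hcop h'
  · obtain ⟨t, ht | ht⟩ := Int.sq_of_isCoprime hcop.symm (by rw [mul_comm]; exact h')
    · have hs0 : s ≠ 0 := by
        rintro rfl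
        rw [hs] at h'
        simp at h'
        exact hk' (by simpa using h'.symm)
      have ht0 : t ≠ 0 := by
        rintro rfl
        rw [ht] at h'
        simp at h'
        exact hk' (by simpa using h'.symm)
      refine ⟨g, 1, |s|, |t|, hg, Dvd.intro _ rfl, Dvd.intro _ rfl, Or.inl rfl,
        abs_pos.mpr hs0, abs_pos.mpr ht0, ?_, ?_⟩
      · rw [sq_abs, hs]; ring
      · rw [sq_abs, ht]; ring
    · exfalso
      rw [hs, ht] at h'
      nlinarith [sq_nonneg (s * t)]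
  · obtain ⟨t, ht | ht⟩ := Int.sq_of_isCoprime hcop.symm (by rw [mul_comm]; exact h')
    · exfalso
      rw [hs, ht] at h'
      nlinarith [sq_nonneg (s * t)]
    · have hs0 : s ≠ 0 := by
        rintro rfl
        rw [hs] at h'
        simp at h'
        exact hk' (by simpa using h'.symm)
      have ht0 : t ≠ 0 := by
        rintro rfl
        rw [ht] at h'
        simp at h'
        exact hk' (by simpa using h'.symm)
      refine ⟨g, -1, |s|, |t|, hg, Dvd.intro _ rfl, Dvd.intro _ rfl, Or.inr rfl,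
        abs_pos.mpr hs0, abs_pos.mpr ht0, ?_, ?_⟩
      · rw [sq_abs, hs]; ring
      · rw [sq_abs, ht]; ring

theorem dvd_eighty_cases (g : ℤ) (hg : 0 < g) (h : g ∣ 80) :
    g = 1 ∨ g = 2 ∨ g = 4 ∨ g = 5 ∨ g = 8 ∨ g = 10 ∨ g = 16 ∨ g = 20 ∨ g = 40 ∨ g = 80 := by
  have hle : g ≤ 80 := Int.le_of_dvd (by norm_num) h
  interval_cases g <;> omega


theorem odd_sq_or_of_isCoprime {b c : ℤ} (h : IsCoprime b c) :
    b ^ 2 % 2 = 1 ∨ c ^ 2 % 2 = 1 := by
  by_contra hcon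
  have hb : b ^ 2 % 2 = 0 := by omega
  have hc : c ^ 2 % 2 = 0 := by omega
  have hp : Prime (2 : ℤ) := Int.prime_two
  have hb2 : (2 : ℤ) ∣ b := hp.dvd_of_dvd_pow (Int.dvd_of_emod_eq_zero hb)
  have hc2 : (2 : ℤ) ∣ c := hp.dvd_of_dvd_pow (Int.dvd_of_emod_eq_zero hc)
  obtain ⟨u, v, huv⟩ := h
  have : (2 : ℤ) ∣ 1 := by
    rw [← huv]
    exact dvd_add (dvd_mul_of_dvd_right hb2 _) (dvd_mul_of_dvd_right hc2 _)
  norm_num at this

/-- 2-adic exclusion of the classes `±2, ±10` (i.e. `g ∈ {2, 8, 10, 40}`), on the level of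
residues: `B, C, S, T` play the roles of `b^2, c^2, s^2, t^2`. -/
theorem no_even_class (g ε B C S T : ℤ) (hg : g = 2 ∨ g = 8 ∨ g = 10 ∨ g = 40)
    (hε : ε = 1 ∨ ε = -1)
    (hB : B % 16 = 0 ∨ B % 16 = 1 ∨ B % 16 = 4 ∨ B % 16 = 9)
    (hC : C % 16 = 0 ∨ C % 16 = 1 ∨ C % 16 = 4 ∨ C % 16 = 9)
    (hS : S % 16 = 0 ∨ S % 16 = 1 ∨ S % 16 = 4 ∨ S % 16 = 9)
    (hT : T % 16 = 0 ∨ T % 16 = 1 ∨ T % 16 = 4 ∨ T % 16 = 9)
    (hodd : B % 2 = 1 ∨ C % 2 = 1)
    (h1 : B - C = ε * g * S) (h2 : B - 81 * C = ε * g * T) : False := by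
  have hS4 : S % 4 = 0 ∨ S % 4 = 1 := by
    clear hB hC hT hodd h1 h2
    omega
  have hT4 : T % 4 = 0 ∨ T % 4 = 1 := by
    clear hB hC hS hS4 hodd h1 h2
    omega
  have key8 : ∀ B : ℤ, (B % 16 = 0 ∨ B % 16 = 1 ∨ B % 16 = 4 ∨ B % 16 = 9) → B % 2 = 1 →
      B % 8 = 1 := by
    intro B hB hodd
    omega
  rcases hg with rfl | rfl | rfl | rfl <;> rcases hε with rfl | rfl
  · -- g = 2, ε = 1
    have hBC : B % 2 = 1 ∧ C % 2 = 1 := by
      clear hB hC hS hT hS4 hT4 key8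
      omega
    have hB8 := key8 B hB hBC.1
    have hC8 := key8 C hC hBC.2
    clear hB hC hodd hBC hS4 hT4 key8
    omega
  · have hBC : B % 2 = 1 ∧ C % 2 = 1 := by
      clear hB hC hS hT hS4 hT4 key8
      omega
    have hB8 := key8 B hB hBC.1
    have hC8 := key8 C hC hBC.2
    clear hB hC hodd hBC hS4 hT4 key8
    omega
  · -- g = 8
    clear hB hC hS hT key8
    omega
  · clear hB hC hS hT key8
    omega
  · -- g = 10
    have hBC : B % 2 = 1 ∧ C % 2 = 1 := by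
      clear hB hC hS hT hS4 hT4 key8
      omega
    have hB8 := key8 B hB hBC.1
    have hC8 := key8 C hC hBC.2
    clear hB hC hodd hBC hS4 hT4 key8
    omega
  · have hBC : B % 2 = 1 ∧ C % 2 = 1 := by
      clear hB hC hS hT hS4 hT4 key8
      omega
    have hB8 := key8 B hB hBC.1
    have hC8 := key8 C hC hBC.2
    clear hB hC hodd hBC hS4 hT4 key8
    omega
  · -- g = 40
    clear hB hC hS hT key8
    omega
  · clear hB hC hS hT key8
    omega

/-- Class analysis: a `Bad` pair lies in one of the four classes `±1, ±5`. -/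
theorem four_classes (b c : ℤ) (h : Bad b c) :
    ∃ (δ ε V W : ℤ), (δ = 1 ∨ δ = 5) ∧ (ε = 1 ∨ ε = -1) ∧ 0 < V ∧ 0 < W ∧
      b ^ 2 - c ^ 2 = ε * δ * V ^ 2 ∧ b ^ 2 - 81 * c ^ 2 = ε * δ * W ^ 2 := by
  obtain ⟨hb, hc, hcop, k, hk, hsq⟩ := h
  obtain ⟨g, ε, s, t, hg, hg1, hg2, hε, hs, ht, hA1, hA2⟩ := class_decomp _ _ k hk hsq
  have hg80 : g ∣ 80 := by
    have hc2 : IsCoprime (b ^ 2) (c ^ 2) := hcop.pow
    obtain ⟨u, v, huv⟩ := hc2
    have e : (80 : ℤ) = u * (81 * (b ^ 2 - c ^ 2) - (b ^ 2 - 81 * c ^ 2)) +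
        v * ((b ^ 2 - c ^ 2) - (b ^ 2 - 81 * c ^ 2)) := by linear_combination (-80 : ℤ) * huv
    rw [e]
    exact dvd_add (dvd_mul_of_dvd_right (dvd_sub (dvd_mul_of_dvd_right hg1 _) hg2) _)
      (dvd_mul_of_dvd_right (dvd_sub hg1 hg2) _)
  have hbad : ¬ (g = 2 ∨ g = 8 ∨ g = 10 ∨ g = 40) := fun hg' =>
    no_even_class g ε (b ^ 2) (c ^ 2) (s ^ 2) (t ^ 2) hg' hε (sq_mod_sixteen b)
      (sq_mod_sixteen c) (sq_mod_sixteen s) (sq_mod_sixteen t) (odd_sq_or_of_isCoprime hcop)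
      hA1 hA2
  rcases dvd_eighty_cases g hg hg80 with rfl | rfl | rfl | rfl | rfl | rfl | rfl | rfl | rfl | rfl
  · exact ⟨1, ε, s, t, Or.inl rfl, hε, hs, ht, by rw [hA1], by rw [hA2]⟩
  · exact absurd (by norm_num) hbad
  · exact ⟨1, ε, 2 * s, 2 * t, Or.inl rfl, hε, by positivity, by positivity,
      by rw [hA1]; ring, by rw [hA2]; ring⟩
  · exact ⟨5, ε, s, t, Or.inr rfl, hε, hs, ht, by rw [hA1], by rw [hA2]⟩
  · exact absurd (by norm_num) hbad
  · exact absurd (by norm_num) hbad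
  · exact ⟨1, ε, 4 * s, 4 * t, Or.inl rfl, hε, by positivity, by positivity,
      by rw [hA1]; ring, by rw [hA2]; ring⟩
  · exact ⟨5, ε, 2 * s, 2 * t, Or.inr rfl, hε, by positivity, by positivity,
      by rw [hA1]; ring, by rw [hA2]; ring⟩
  · exact absurd (by norm_num) hbad
  · exact ⟨5, ε, 4 * s, 4 * t, Or.inr rfl, hε, by positivity, by positivity,
      by rw [hA1]; ring, by rw [hA2]; ring⟩

theorem eq_of_five_mul {x y : ℤ} (h : 5 * x = 5 * y) : x = y := by omega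

/-- Every `Bad` pair yields a primitive class-one solution of controlled size. -/
theorem to_class_one (b c : ℤ) (h : Bad b c) :
    ∃ U Z V W : ℤ, 0 < U ∧ 0 < Z ∧ 0 < V ∧ 0 < W ∧ IsCoprime U Z ∧
      U ^ 2 - Z ^ 2 = V ^ 2 ∧ U ^ 2 - 81 * Z ^ 2 = W ^ 2 ∧ (U ≤ 9 * b ∨ U ≤ 9 * c) := by
  obtain ⟨δ, ε, V, W, hδ, hε, hV, hW, h1, h2⟩ := four_classes b c h
  obtain ⟨hb, hc, hcop, -⟩ := h
  rcases hδ with rfl | rfl <;> rcases hε with rfl | rfl
  · -- class 1
    obtain ⟨U, Z, V', W', hU, hZ, hV', hW', hcop', e1, e2, hle⟩ :=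
      normalize b c V W hb hc hV hW (by linear_combination h1) (by linear_combination h2)
    exact ⟨U, Z, V', W', hU, hZ, hV', hW', hcop', e1, e2, Or.inl (by linarith)⟩
  · -- class -1
    obtain ⟨U, Z, V', W', hU, hZ, hV', hW', hcop', e1, e2, hle⟩ :=
      normalize (9 * c) b W (9 * V) (by positivity) hb hW (by positivity)
        (by linear_combination (-1 : ℤ) * h2) (by linear_combination (-81 : ℤ) * h1)
    exact ⟨U, Z, V', W', hU, hZ, hV', hW', hcop', e1, e2, Or.inr hle⟩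
  · -- class 5
    obtain ⟨U, Z, V', W', hU, hZ, hV', hW', hcop', e1, e2, hle⟩ :=
      normalize (9 * V) W (4 * b) (36 * c) (by positivity) hW (by positivity) (by positivity)
        (eq_of_five_mul (by linear_combination (-81 : ℤ) * h1 + h2))
        (eq_of_five_mul (by linear_combination (-81 : ℤ) * h1 + (81 : ℤ) * h2))
    refine ⟨U, Z, V', W', hU, hZ, hV', hW', hcop', e1, e2, Or.inl ?_⟩
    have : V < b := by nlinarith
    linarith
  · -- class -5
    obtain ⟨U, Z, V', W', hU, hZ, hV', hW', hcop', e1, e2, hle⟩ :=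
      normalize W V (4 * c) (4 * b) hW hV (by positivity) (by positivity)
        (eq_of_five_mul (by linear_combination (-1 : ℤ) * h1 + h2))
        (eq_of_five_mul (by linear_combination (-81 : ℤ) * h1 + h2))
    refine ⟨U, Z, V', W', hU, hZ, hV', hW', hcop', e1, e2, Or.inr ?_⟩
    have : W < 9 * c := by nlinarith
    linarith


theorem odd_of_sq_odd {x : ℤ} (h : x ^ 2 % 2 = 1) : x % 2 = 1 := by
  by_contra hx
  have hx0 : x % 2 = 0 := by omega
  obtain ⟨m, rfl⟩ : ∃ m, x = 2 * m := ⟨x / 2, by omega⟩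
  ring_nf at h
  omega

theorem even_of_sq_even {x : ℤ} (h : x ^ 2 % 2 = 0) : x % 2 = 0 := by
  by_contra hx
  have hx1 : x % 2 = 1 := by omega
  obtain ⟨m, rfl⟩ : ∃ m, x = 2 * m + 1 := ⟨x / 2, by omega⟩
  ring_nf at h
  omega

theorem eq_of_sq_eq_of_pos {x y : ℤ} (hx : 0 < x) (hy : 0 < y) (h : x ^ 2 = y ^ 2) : x = y := by
  rcases sq_eq_sq_iff_eq_or_eq_neg.mp h with h | h
  · exact h
  · omega

/-- Class-one descent step. -/
theorem class_one_descent (U Z V W : ℤ) (hU : 0 < U) (hZ : 0 < Z) (hV : 0 < V) (hW : 0 < W)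
    (hcop : IsCoprime U Z) (h1 : U ^ 2 - Z ^ 2 = V ^ 2) (h2 : U ^ 2 - 81 * Z ^ 2 = W ^ 2) :
    82 ≤ U ∧ ∃ b c : ℤ, Bad b c ∧ b ^ 2 < U ∧ c ^ 2 < U := by
  -- `3 ∤ U`
  have h3U : ¬ (3 : ℤ) ∣ U := by
    intro h3
    have hU3 : U ^ 2 % 3 = 0 := by
      obtain ⟨m, rfl⟩ := h3
      ring_nf
      omega
    have hV3 := sq_mod_three V
    have hZ3 := sq_mod_three Z
    have hZ0 : Z ^ 2 % 3 = 0 := by omega
    have h3Z := dvd_of_sq_mod_three hZ0
    obtain ⟨u, v, huv⟩ := hcop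
    have : (3 : ℤ) ∣ 1 := by
      rw [← huv]
      exact dvd_add (dvd_mul_of_dvd_right h3 _) (dvd_mul_of_dvd_right h3Z _)
    norm_num at this
  have hU3 : IsCoprime U 3 := ((Int.prime_three.coprime_iff_not_dvd).mpr h3U).symm
  have hU81 : IsCoprime U 81 := by
    have := hU3.pow_right (n := 4)
    norm_num at this
    exact this
  -- `U` is odd
  have hUsq_odd : U ^ 2 % 2 = 1 := by
    have hodd := odd_sq_or_of_isCoprime hcop
    have hUs := sq_mod_sixteen U
    have hZs := sq_mod_sixteen Z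
    have hVs := sq_mod_sixteen V
    clear h2
    omega
  have hUodd : U % 2 = 1 := odd_of_sq_odd hUsq_odd
  -- coprimality of `U` with `V` and `W`
  have hUV : IsCoprime U V := by
    have h := (hcop.pow_right (n := 2)).neg_right.add_mul_left_right U
    have e : -Z ^ 2 + U * U = V ^ 2 := by linear_combination h1
    rw [e] at h
    exact (IsCoprime.pow_right_iff (by norm_num)).mp h
  have hUW : IsCoprime U W := by
    have h := (hU81.mul_right (hcop.pow_right (n := 2))).neg_right.add_mul_left_right U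
    have e : -(81 * Z ^ 2) + U * U = W ^ 2 := by linear_combination h2
    rw [e] at h
    exact (IsCoprime.pow_right_iff (by norm_num)).mp h
  have hU9Z : 9 * Z < U := by nlinarith
  have hVU : V < U := by nlinarith
  have hWU : W < U := by nlinarith
  rcases Int.emod_two_eq_zero_or_one Z with hZ2 | hZ2
  swap
  · -- `Z` odd: contradiction
    exfalso
    have hZsq : Z ^ 2 % 2 = 1 := by
      obtain ⟨m, rfl⟩ : ∃ m, Z = 2 * m + 1 := ⟨Z / 2, by omega⟩
      ring_nf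
      omega
    have hV2 : V % 2 = 0 := even_of_sq_even (by omega)
    have hW2 : W % 2 = 0 := even_of_sq_even (by omega)
    obtain ⟨P, hP⟩ : ∃ P, U + Z = 2 * P := ⟨(U + Z) / 2, by omega⟩
    obtain ⟨Q, hQ⟩ : ∃ Q, U - Z = 2 * Q := ⟨(U - Z) / 2, by omega⟩
    obtain ⟨V', rfl⟩ : ∃ V', V = 2 * V' := ⟨V / 2, by omega⟩
    obtain ⟨W', rfl⟩ : ∃ W', W = 2 * W' := ⟨W / 2, by omega⟩
    obtain rfl : U = P + Q := by linarith
    obtain rfl : Z = P - Q := by linarith
    have hPpos : 0 < P := by linarith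
    have hQpos : 0 < Q := by linarith
    have hPQ : P * Q = V' ^ 2 := by
      apply mul_left_cancel₀ (show (4 : ℤ) ≠ 0 by norm_num)
      linear_combination h1
    have hPQcop : IsCoprime P Q := by
      obtain ⟨u, v, huv⟩ := hcop
      exact ⟨u + v, u - v, by linear_combination huv⟩
    have hRS : (5 * P - 4 * Q) * (5 * Q - 4 * P) = W' ^ 2 := by
      apply mul_left_cancel₀ (show (4 : ℤ) ≠ 0 by norm_num)
      linear_combination h2
    have hRScop : IsCoprime (5 * P - 4 * Q) (5 * Q - 4 * P) := by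
      obtain ⟨u, v, huv⟩ := hU81.mul_right hcop
      have h9 : IsCoprime (P + Q) (9 * (P - Q)) := by
        have h := hU3.pow_right (n := 2)
        norm_num at h
        exact h.mul_right hcop
      obtain ⟨u, v, huv⟩ := h9
      exact ⟨u + v, u - v, by linear_combination huv⟩
    have hRpos : 0 < 5 * P - 4 * Q := by linarith
    have hSpos : 0 < 5 * Q - 4 * P := by linarith
    obtain ⟨p, hp, hp'⟩ := pos_sq_of_coprime_mul hPpos hPQcop hPQ
    obtain ⟨q, hq, hq'⟩ := pos_sq_of_coprime_mul hQpos hPQcop.symm (by rw [mul_comm]; exact hPQ)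
    obtain ⟨r, hr, hr'⟩ := pos_sq_of_coprime_mul hRpos hRScop hRS
    obtain ⟨s, hs, hs'⟩ := pos_sq_of_coprime_mul hSpos hRScop.symm (by rw [mul_comm]; exact hRS)
    have hps := sq_mod_sixteen p
    have hqs := sq_mod_sixteen q
    have hrs := sq_mod_sixteen r
    have hss := sq_mod_sixteen s
    have hodd : (p ^ 2 + q ^ 2) % 2 = 1 := by
      rw [← hp', ← hq']
      exact hUodd
    have e1 : r ^ 2 = 5 * p ^ 2 - 4 * q ^ 2 := by rw [← hp', ← hq', ← hr']
    have e2 : s ^ 2 = 5 * q ^ 2 - 4 * p ^ 2 := by rw [← hp', ← hq', ← hs']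
    clear hp' hq' hr' hs' hRScop hRS hPQcop hPQ h1 h2 hcop hUV hUW hUsq_odd hZsq hU81 hU3 h3U
    clear hU9Z hVU hWU hV hW hU hZ hPpos hQpos hRpos hSpos hP hQ hV2 hW2 hZ2 hUodd
    omega
  · -- `Z` even: the actual descent
    obtain ⟨Z', rfl⟩ : ∃ Z', Z = 2 * Z' := ⟨Z / 2, by omega⟩
    have hZ'pos : 0 < Z' := by linarith
    have hV2 : V % 2 = 1 := by
      apply odd_of_sq_odd
      have : (2 * Z') ^ 2 = 2 * (2 * Z' ^ 2) := by ring
      omega
    have hW2 : W % 2 = 1 := by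
      apply odd_of_sq_odd
      have : 81 * (2 * Z') ^ 2 = 2 * (162 * Z' ^ 2) := by ring
      omega
    obtain ⟨P, hP⟩ : ∃ P, U + V = 2 * P := ⟨(U + V) / 2, by omega⟩
    obtain ⟨Q, hQ⟩ : ∃ Q, U - V = 2 * Q := ⟨(U - V) / 2, by omega⟩
    obtain ⟨R, hR⟩ : ∃ R, U + W = 2 * R := ⟨(U + W) / 2, by omega⟩
    obtain ⟨S, hS⟩ : ∃ S, U - W = 2 * S := ⟨(U - W) / 2, by omega⟩
    have hPpos : 0 < P := by linarith
    have hQpos : 0 < Q := by linarith
    have hRpos : 0 < R := by linarith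
    have hSpos : 0 < S := by linarith
    have hPQ : P * Q = Z' ^ 2 := by
      apply mul_left_cancel₀ (show (4 : ℤ) ≠ 0 by norm_num)
      have e : 4 * (P * Q) = (U + V) * (U - V) := by rw [hP, hQ]; ring
      rw [e]
      linear_combination h1
    have hRS : R * S = (9 * Z') ^ 2 := by
      apply mul_left_cancel₀ (show (4 : ℤ) ≠ 0 by norm_num)
      have e : 4 * (R * S) = (U + W) * (U - W) := by rw [hR, hS]; ring
      rw [e]
      linear_combination h2
    have hPQcop : IsCoprime P Q := by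
      obtain ⟨u, v, huv⟩ := hUV
      refine ⟨u + v, u - v, ?_⟩
      have eU : U = P + Q := by linarith
      have eV : V = P - Q := by linarith
      rw [eU, eV] at huv
      linear_combination huv
    have hRScop : IsCoprime R S := by
      obtain ⟨u, v, huv⟩ := hUW
      refine ⟨u + v, u - v, ?_⟩
      have eU : U = R + S := by linarith
      have eW : W = R - S := by linarith
      rw [eU, eW] at huv
      linear_combination huv
    obtain ⟨p, hp, hp'⟩ := pos_sq_of_coprime_mul hPpos hPQcop hPQ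
    obtain ⟨q, hq, hq'⟩ := pos_sq_of_coprime_mul hQpos hPQcop.symm (by rw [mul_comm]; exact hPQ)
    obtain ⟨r, hr, hr'⟩ := pos_sq_of_coprime_mul hRpos hRScop hRS
    obtain ⟨s, hs, hs'⟩ := pos_sq_of_coprime_mul hSpos hRScop.symm (by rw [mul_comm]; exact hRS)
    -- basic relations
    have eU1 : U = p ^ 2 + q ^ 2 := by rw [← hp', ← hq']; linarith
    have eU2 : U = r ^ 2 + s ^ 2 := by rw [← hr', ← hs']; linarith
    have eV : V = p ^ 2 - q ^ 2 := by rw [← hp', ← hq']; linarith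
    have epq : p * q = Z' := by
      apply eq_of_sq_eq_of_pos (by positivity) hZ'pos
      rw [← hPQ, hp', hq']
      ring
    have ers : r * s = 9 * (p * q) := by
      apply eq_of_sq_eq_of_pos (by positivity) (by positivity)
      rw [epq, ← hRS, hr', hs']
      ring
    have hqp : q < p := by
      by_contra hcon
      have hle : p ^ 2 ≤ q ^ 2 := pow_le_pow_left₀ hp.le (not_lt.mp hcon) 2
      linarith
    constructor
    · -- size bound
      have h18 : 18 * (p * q) < p ^ 2 + q ^ 2 := by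
        rw [epq, ← eU1]
        linarith
      have hp18 : 17 * q < p := by
        by_contra hcon
        have hcon' : p ≤ 17 * q := not_lt.mp hcon
        linarith [mul_le_mul_of_nonneg_left hcon' hp.le, mul_lt_mul_of_pos_right hqp hq]
      have hp18' : 18 ≤ p := by linarith
      have hpp : (18 : ℤ) * 18 ≤ p * p := mul_le_mul hp18' hp18' (by norm_num) hp.le
      have hqq : 0 ≤ q ^ 2 := sq_nonneg q
      rw [eU1]
      linarith
    · -- the new pair `(r, p)`
      have e1 : r ^ 2 - p ^ 2 = q ^ 2 - s ^ 2 := by linarith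
      have hkey : q ^ 2 * ((r ^ 2 - p ^ 2) * (r ^ 2 - 81 * p ^ 2)) = ((q ^ 2 - s ^ 2) * r) ^ 2 := by
        linear_combination (r ^ 2 * (q ^ 2 - s ^ 2)) * e1 +
          ((r ^ 2 - p ^ 2) * (r * s + 9 * p * q)) * ers
      have hqdvd : q ∣ (q ^ 2 - s ^ 2) * r := by
        rw [← Int.pow_dvd_pow_iff (n := 2) two_ne_zero, ← hkey]
        exact Dvd.intro _ rfl
      obtain ⟨k₀, hk₀⟩ := hqdvd
      have hq2 : q ^ 2 ≠ 0 := by positivity
      have hN : (r ^ 2 - p ^ 2) * (r ^ 2 - 81 * p ^ 2) = k₀ ^ 2 := by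
        apply mul_left_cancel₀ hq2
        rw [hkey, hk₀]
        ring
      have hk₀ne : k₀ ≠ 0 := by
        rintro rfl
        rw [mul_zero] at hk₀
        rcases mul_eq_zero.mp hk₀ with h | h
        · -- `q^2 = s^2`
          have hqs2 : q ^ 2 = s ^ 2 := by linarith
          have hqs : q = s := eq_of_sq_eq_of_pos hq hs hqs2
          have hpr : p = r := eq_of_sq_eq_of_pos hp hr (by linarith)
          have e3 : r * s = 9 * (r * s) := by
            have e4 := ers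
            rw [hpr, hqs] at e4
            exact e4
          have hrs := mul_pos hr hs
          linarith
        · omega
      obtain ⟨b', c', hbad, hb', hc'⟩ := reduce r p k₀ hr hp hk₀ne hN
      have hs2 : 0 < s ^ 2 := by positivity
      have hq2' : 0 < q ^ 2 := by positivity
      refine ⟨b', c', hbad, ?_, ?_⟩
      · have hle : b' ^ 2 ≤ r ^ 2 := pow_le_pow_left₀ hbad.1.le hb' 2
        linarith
      · have hle : c' ^ 2 ≤ p ^ 2 := pow_le_pow_left₀ hbad.2.1.le hc' 2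
        linarith

/-- Main lemma: there is no `Bad` pair. -/
theorem not_bad_aux : ∀ (n : ℕ) (b c : ℤ), Bad b c → b ≤ n → c ≤ n → False := by
  intro n
  induction n using Nat.strong_induction_on with
  | _ n ih =>
    intro b c h hb hc
    obtain ⟨U, Z, V, W, hU, hZ, hV, hW, hcop, h1, h2, hle⟩ := to_class_one b c h
    obtain ⟨hU82, b', c', h', hb', hc'⟩ := class_one_descent U Z V W hU hZ hV hW hcop h1 h2
    have hUn : U ≤ 9 * (n : ℤ) := by
      rcases hle with h | h <;> linarith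
    have hn10 : (10 : ℤ) ≤ n := by omega
    have hb'pos := h'.1
    have hc'pos := h'.2.1
    have hb'n : b' < n := by
      by_contra hcon
      have hcon' : (n : ℤ) ≤ b' := not_lt.mp hcon
      nlinarith
    have hc'n : c' < n := by
      by_contra hcon
      have hcon' : (n : ℤ) ≤ c' := not_lt.mp hcon
      nlinarith
    have hn1 : 1 ≤ n := by omega
    refine ih (n - 1) (by omega) b' c' h' ?_ ?_
    · have : ((n - 1 : ℕ) : ℤ) = (n : ℤ) - 1 := by omega
      omega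
    · have : ((n - 1 : ℕ) : ℤ) = (n : ℤ) - 1 := by omega
      omega

/-- **Main lemma (descent core).** For coprime positive integers `b, c`, the integer
`(b^2 - c^2)(b^2 - 81 c^2)` is never a nonzero perfect square. -/
theorem not_bad (b c : ℤ) : ¬ Bad b c := by
  intro h
  have hb := h.1
  have hc := h.2.1
  refine not_bad_aux (b.toNat + c.toNat) b c h ?_ ?_
  · have := Int.toNat_of_nonneg hb.le
    have := Int.toNat_of_nonneg hc.le
    push_cast
    omega
  · have := Int.toNat_of_nonneg hb.le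
    have := Int.toNat_of_nonneg hc.le
    push_cast
    omega

/-- Convenient form: for coprime positive integers, a square value must be zero. -/
theorem sq_eq_zero_of_coprime (b c k : ℤ) (hb : 0 < b) (hc : 0 < c) (hcop : IsCoprime b c)
    (h : (b ^ 2 - c ^ 2) * (b ^ 2 - 81 * c ^ 2) = k ^ 2) : k = 0 := by
  by_contra hk
  exact not_bad b c ⟨hb, hc, hcop, k, hk, h⟩


theorem no_eighty (b e : ℤ) (he : e ≠ 0) (h : b ^ 2 = 80 * e ^ 2) : False := by
  have hb : b ≠ 0 := by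
    rintro rfl
    have : 0 < e ^ 2 := by positivity
    linarith
  obtain ⟨g, b', e', hg, rfl, rfl, hcop⟩ := exists_coprime_factor b e hb
  have hg2 : g ^ 2 ≠ 0 := by positivity
  have h' : b' ^ 2 = 80 * e' ^ 2 := by
    apply mul_left_cancel₀ hg2
    linear_combination h
  have hu : IsUnit e' :=
    (hcop.pow_left (m := 2)).isUnit_of_dvd' ⟨80 * e', by rw [h']; ring⟩ dvd_rfl
  have he'2 : e' ^ 2 = 1 := by
    rcases Int.isUnit_iff.mp hu with h1 | h1 <;> rw [h1] <;> norm_num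
  have hb'2 : b' ^ 2 = 80 := by rw [h', he'2]; norm_num
  have habs : |b'| ^ 2 = 80 := by rw [sq_abs]; exact hb'2
  have hnn : 0 ≤ |b'| := abs_nonneg b'
  rcases le_or_gt |b'| 8 with h8 | h9
  · have : |b'| ^ 2 ≤ 8 ^ 2 := pow_le_pow_left₀ hnn h8 2
    omega
  · have h9' : (9 : ℤ) ≤ |b'| := h9
    have : (9 : ℤ) ^ 2 ≤ |b'| ^ 2 := pow_le_pow_left₀ (by norm_num) h9' 2
    omega

/-- **Descent core, interface form.** The simultaneous Pythagorean system
`a^2 - e^2 = b^2`, `a^2 - 81 e^2 = c^2` has only the integer solutions with `e = 0`. -/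
theorem core (a b c e : ℤ) (h1 : a ^ 2 - e ^ 2 = b ^ 2) (h2 : a ^ 2 - 81 * e ^ 2 = c ^ 2) :
    e = 0 := by
  by_contra he
  have he2 : 0 < e ^ 2 := by positivity
  have ha : a ≠ 0 := by
    rintro rfl
    have := sq_nonneg b
    linarith
  have hb : b ≠ 0 := by
    rintro rfl
    have := sq_nonneg c
    linarith
  have hc : c ≠ 0 := by
    rintro rfl
    exact no_eighty b e he (by linarith)
  have h1' : |a| ^ 2 - |e| ^ 2 = |b| ^ 2 := by
    simp only [sq_abs]
    exact h1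
  have h2' : |a| ^ 2 - 81 * |e| ^ 2 = |c| ^ 2 := by
    simp only [sq_abs]
    exact h2
  obtain ⟨U, Z, V, W, hU, hZ, hV, hW, hcop, e1, e2, -⟩ :=
    normalize |a| |e| |b| |c| (abs_pos.mpr ha) (abs_pos.mpr he) (abs_pos.mpr hb) (abs_pos.mpr hc)
      h1' h2'
  obtain ⟨-, b', c', hbad, -, -⟩ := class_one_descent U Z V W hU hZ hV hW hcop e1 e2
  exact not_bad b' c' hbad

end Fermat.Agent.S51.DescentCore
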