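import Mathlib
import Fermat.Agent.S51.DescentCore

/-!
# Rational points on `y² = x(x+9)(x-16)` (a model of `X₀(15)`)

Wrapper around the integer descent statement
`∀ a b c e : ℤ, a² - e² = b² → a² - 81 e² = c² → e = 0` (proved in `DescentCore`).
Main results: `rational_points`, `rational_points_x`, `rational_points_list`.
-/

set_option autoImplicit false

namespace Fermat.Agent.S51.Descent

/-- The integer descent statement (class-1 system of the curve `Y² = X(X-1)(X-81)`). -/
def CoreStatement : Prop :=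
  ∀ a b c e : ℤ, a ^ 2 - e ^ 2 = b ^ 2 → a ^ 2 - 81 * e ^ 2 = c ^ 2 → e = 0

/-- Four rationals have a common nonzero integer denominator. -/
theorem exists_common_den (A B C E : ℚ) :
    ∃ (d a b c e : ℤ), d ≠ 0 ∧ (a : ℚ) = A * d ∧ (b : ℚ) = B * d ∧ (c : ℚ) = C * d ∧
      (e : ℚ) = E * d := by
  refine ⟨(A.den * B.den * C.den * E.den : ℕ), A.num * (B.den * C.den * E.den : ℕ),
    B.num * (A.den * C.den * E.den : ℕ), C.num * (A.den * B.den * E.den : ℕ),
    E.num * (A.den * B.den * C.den : ℕ), ?_, ?_, ?_, ?_, ?_⟩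
  · have hA := A.den_pos
    have hB := B.den_pos
    have hC := C.den_pos
    have hE := E.den_pos
    positivity
  · have h := Rat.mul_den_eq_num A
    push_cast
    rw [← h]; ring
  · have h := Rat.mul_den_eq_num B
    push_cast
    rw [← h]; ring
  · have h := Rat.mul_den_eq_num C
    push_cast
    rw [← h]; ring
  · have h := Rat.mul_den_eq_num E
    push_cast
    rw [← h]; ring

/-- Rational version of the descent statement. -/
theorem core_rat_of_core (hcore : CoreStatement) (A B C E : ℚ) (h1 : A ^ 2 - E ^ 2 = B ^ 2)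
    (h2 : A ^ 2 - 81 * E ^ 2 = C ^ 2) : E = 0 := by
  obtain ⟨d, a, b, c, e, hd, ha, hb, hc, he⟩ := exists_common_den A B C E
  have hd' : (d : ℚ) ≠ 0 := by exact_mod_cast hd
  have e1 : a ^ 2 - e ^ 2 = b ^ 2 := by
    have : ((a ^ 2 - e ^ 2 : ℤ) : ℚ) = ((b ^ 2 : ℤ) : ℚ) := by
      push_cast
      rw [ha, he, hb]
      linear_combination (d : ℚ) ^ 2 * h1
    exact_mod_cast this
  have e2 : a ^ 2 - 81 * e ^ 2 = c ^ 2 := by
    have : ((a ^ 2 - 81 * e ^ 2 : ℤ) : ℚ) = ((c ^ 2 : ℤ) : ℚ) := by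
      push_cast
      rw [ha, he, hc]
      linear_combination (d : ℚ) ^ 2 * h2
    exact_mod_cast this
  have he0 : e = 0 := hcore a b c e e1 e2
  rw [he0] at he
  have : E * d = 0 := by rw [← he]; simp
  rcases mul_eq_zero.mp this with h | h
  · exact h
  · exact absurd h hd'

/-- All rational points of `Y² = X(X-1)(X-81)` are 2-torsion. -/
theorem E3_points_of_core (hcore : CoreStatement) (X Y : ℚ) (h : Y ^ 2 = X * (X - 1) * (X - 81)) :
    Y = 0 := by
  have h1 : (X ^ 2 - 81) ^ 2 - (2 * Y) ^ 2 = (X ^ 2 - 2 * X + 81) ^ 2 := by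
    linear_combination (-4 : ℚ) * h
  have h2 : (X ^ 2 - 81) ^ 2 - 81 * (2 * Y) ^ 2 = (X ^ 2 - 162 * X + 81) ^ 2 := by
    linear_combination (-324 : ℚ) * h
  have := core_rat_of_core hcore _ _ _ _ h1 h2
  linarith

/-- The rational points of `y² = x(x+9)(x-16)`: either `y = 0` or `x ∈ {36, -4}`. -/
theorem rational_points_of_core (hcore : CoreStatement) (x y : ℚ)
    (h : y ^ 2 = x * (x + 9) * (x - 16)) : y = 0 ∨ x = 36 ∨ x = -4 := by
  by_cases hx : x = 16
  · left
    rw [hx] at h
    have : y ^ 2 = 0 := by rw [h]; ring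
    exact pow_eq_zero_iff (two_ne_zero) |>.mp this
  · have hx1 : x - 16 ≠ 0 := sub_ne_zero.mpr hx
    have hY : (y * (400 - (x - 16) ^ 2) / (x - 16) ^ 2) ^ 2 =
        (y ^ 2 / (x - 16) ^ 2) * (y ^ 2 / (x - 16) ^ 2 - 1) * (y ^ 2 / (x - 16) ^ 2 - 81) := by
      have hy4 : y ^ 4 = (x * (x + 9) * (x - 16)) ^ 2 := by rw [← h]; ring
      have hy6 : y ^ 6 = (x * (x + 9) * (x - 16)) ^ 3 := by rw [← h]; ring
      field_simp
      ring_nf
      rw [hy4, hy6, h]
      ring
    have h0 := E3_points_of_core hcore _ _ hY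
    have h0' : y * (400 - (x - 16) ^ 2) = 0 := by
      have hne : (x - 16) ^ 2 ≠ 0 := pow_ne_zero 2 hx1
      rcases div_eq_zero_iff.mp h0 with h' | h'
      · exact h'
      · exact absurd h' hne
    rcases mul_eq_zero.mp h0' with hy | hq
    · exact Or.inl hy
    · right
      have : (x - 36) * (x + 4) = 0 := by linear_combination -hq
      rcases mul_eq_zero.mp this with h' | h'
      · left; linarith
      · right; linarith

/-- The full list of rational points of `y² = x(x+9)(x-16)`. -/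
theorem rational_points_list_of_core (hcore : CoreStatement) (x y : ℚ)
    (h : y ^ 2 = x * (x + 9) * (x - 16)) :
    (x = 0 ∧ y = 0) ∨ (x = -9 ∧ y = 0) ∨ (x = 16 ∧ y = 0) ∨
      (x = 36 ∧ y = 180) ∨ (x = 36 ∧ y = -180) ∨ (x = -4 ∧ y = 20) ∨ (x = -4 ∧ y = -20) := by
  rcases rational_points_of_core hcore x y h with hy | hx | hx
  · rw [hy] at h
    have h' : x * (x + 9) * (x - 16) = 0 := by rw [← h]; ring
    rcases mul_eq_zero.mp h' with h'' | h''
    · rcases mul_eq_zero.mp h'' with h3 | h3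
      · exact Or.inl ⟨h3, hy⟩
      · exact Or.inr (Or.inl ⟨by linarith, hy⟩)
    · exact Or.inr (Or.inr (Or.inl ⟨by linarith, hy⟩))
  · rw [hx] at h
    have : (y - 180) * (y + 180) = 0 := by linear_combination h
    rcases mul_eq_zero.mp this with h' | h'
    · exact Or.inr (Or.inr (Or.inr (Or.inl ⟨hx, by linarith⟩)))
    · exact Or.inr (Or.inr (Or.inr (Or.inr (Or.inl ⟨hx, by linarith⟩))))
  · rw [hx] at h
    have : (y - 20) * (y + 20) = 0 := by linear_combination h
    rcases mul_eq_zero.mp this with h' | h'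
    · exact Or.inr (Or.inr (Or.inr (Or.inr (Or.inr (Or.inl ⟨hx, by linarith⟩)))))
    · exact Or.inr (Or.inr (Or.inr (Or.inr (Or.inr (Or.inr ⟨hx, by linarith⟩)))))

/-- The descent statement holds (helper27's `DescentCore.core`). -/
theorem coreStatement_holds : CoreStatement :=
  fun a b c e h1 h2 => Fermat.Agent.S51.DescentCore.core a b c e h1 h2

/-- All rational points of `Y² = X(X-1)(X-81)` are 2-torsion. -/
theorem E3_points (X Y : ℚ) (h : Y ^ 2 = X * (X - 1) * (X - 81)) : Y = 0 :=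
  E3_points_of_core coreStatement_holds X Y h

/-- The rational points of `y² = x(x+9)(x-16)`: either `y = 0` or `x ∈ {36, -4}`. -/
theorem rational_points (x y : ℚ) (h : y ^ 2 = x * (x + 9) * (x - 16)) :
    y = 0 ∨ x = 36 ∨ x = -4 :=
  rational_points_of_core coreStatement_holds x y h

/-- The full list of rational points of `y² = x(x+9)(x-16)`. -/
theorem rational_points_list (x y : ℚ) (h : y ^ 2 = x * (x + 9) * (x - 16)) :
    (x = 0 ∧ y = 0) ∨ (x = -9 ∧ y = 0) ∨ (x = 16 ∧ y = 0) ∨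
      (x = 36 ∧ y = 180) ∨ (x = 36 ∧ y = -180) ∨ (x = -4 ∧ y = 20) ∨ (x = -4 ∧ y = -20) :=
  rational_points_list_of_core coreStatement_holds x y h

/-- The `x`-coordinates of the rational points of `Y² = X(X+9)(X-16)`. -/
theorem rational_points_x (X Y : ℚ) (h : Y ^ 2 = X * (X + 9) * (X - 16)) :
    X = 0 ∨ X = -9 ∨ X = 16 ∨ X = -4 ∨ X = 36 := by
  rcases rational_points_list X Y h with h | h | h | h | h | h | h
  · exact Or.inl h.1
  · exact Or.inr (Or.inl h.1)
  · exact Or.inr (Or.inr (Or.inl h.1))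
  · exact Or.inr (Or.inr (Or.inr (Or.inr h.1)))
  · exact Or.inr (Or.inr (Or.inr (Or.inr h.1)))
  · exact Or.inr (Or.inr (Or.inr (Or.inl h.1)))
  · exact Or.inr (Or.inr (Or.inr (Or.inl h.1)))

end Fermat.Agent.S51.Descent
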