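import Mathlib

/-!
# S51 piece (G)+(T), part 1: polynomial identities for small division polynomials

Pure commutative-algebra identities (valid over any commutative ring) relating the
evaluations of Mathlib's `Ψ₂Sq`, `Ψ₃`, `preΨ₄`, `Φ 2`, `preΨ' 5` of a Weierstrass curve.
-/

set_option autoImplicit false

namespace Fermat.Agent.S51.Torsion

open Polynomial

variable {R : Type*} [CommRing R] (W : WeierstrassCurve R)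

/-- Evaluation of `Ψ₂Sq`. -/
theorem eval_Ψ₂Sq (x : R) :
    W.Ψ₂Sq.eval x = 4 * x ^ 3 + W.b₂ * x ^ 2 + 2 * W.b₄ * x + W.b₆ := by
  simp [WeierstrassCurve.Ψ₂Sq]

/-- Evaluation of `Ψ₃`. -/
theorem eval_Ψ₃ (x : R) :
    W.Ψ₃.eval x = 3 * x ^ 4 + W.b₂ * x ^ 3 + 3 * W.b₄ * x ^ 2 + 3 * W.b₆ * x + W.b₈ := by
  simp [WeierstrassCurve.Ψ₃]

/-- Evaluation of `preΨ₄`. -/
theorem eval_preΨ₄ (x : R) :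
    W.preΨ₄.eval x = 2 * x ^ 6 + W.b₂ * x ^ 5 + 5 * W.b₄ * x ^ 4 + 10 * W.b₆ * x ^ 3 +
      10 * W.b₈ * x ^ 2 + (W.b₂ * W.b₈ - W.b₄ * W.b₆) * x + (W.b₄ * W.b₈ - W.b₆ ^ 2) := by
  simp [WeierstrassCurve.preΨ₄]

/-- Evaluation of `Φ 2`. -/
theorem eval_Φ_two (x : R) :
    (W.Φ 2).eval x = x ^ 4 - W.b₄ * x ^ 2 - 2 * W.b₆ * x - W.b₈ := by
  simp [WeierstrassCurve.Φ_two]

/-- `preΨ' 5 = preΨ₄ * Ψ₂Sq ^ 2 - Ψ₃ ^ 3`. -/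
theorem preΨ'_five : W.preΨ' 5 = W.preΨ₄ * W.Ψ₂Sq ^ 2 - W.Ψ₃ ^ 3 := by
  have h := W.preΨ'_odd 0
  simpa using h

/-- Evaluation of `preΨ' 5`. -/
theorem eval_preΨ'_five (x : R) :
    (W.preΨ' 5).eval x = W.preΨ₄.eval x * W.Ψ₂Sq.eval x ^ 2 - W.Ψ₃.eval x ^ 3 := by
  rw [preΨ'_five]; simp

/-- (I0) `x * Ψ₂Sq(x) - Φ₂(x) = Ψ₃(x)`. -/
theorem ident_I0 (x : R) :
    x * W.Ψ₂Sq.eval x - (W.Φ 2).eval x = W.Ψ₃.eval x := by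
  rw [eval_Ψ₂Sq, eval_Φ_two, eval_Ψ₃]; ring

/-- (I1) `Ψ₂Sq(Φ₂/Ψ₂Sq) * Ψ₂Sq ^ 3 = preΨ₄ ^ 2`, homogenised. -/
theorem ident_I1 (x : R) :
    4 * (W.Φ 2).eval x ^ 3 + W.b₂ * (W.Φ 2).eval x ^ 2 * W.Ψ₂Sq.eval x +
        2 * W.b₄ * (W.Φ 2).eval x * W.Ψ₂Sq.eval x ^ 2 + W.b₆ * W.Ψ₂Sq.eval x ^ 3 =
      W.preΨ₄.eval x ^ 2 := by
  rw [eval_Ψ₂Sq, eval_Φ_two, eval_preΨ₄]
  linear_combination (-13*x^8 - 8*x^7*W.b₂ - x^6*W.b₂^2 - 28*x^6*W.b₄ - 6*x^5*W.b₂*W.b₄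
    - 38*x^5*W.b₆ - 7*x^4*W.b₂*W.b₆ - 8*x^4*W.b₄^2 - 22*x^4*W.b₈ - 4*x^3*W.b₂*W.b₈
    - 16*x^3*W.b₄*W.b₆ - 8*x^2*W.b₄*W.b₈ - 7*x^2*W.b₆^2 - 6*x*W.b₆*W.b₈ - W.b₈^2) * W.b_relation

/-- (I2) the numerator of `x(4P) - x(P)` is `-Ψ₃ * Ψ₅`. -/
theorem ident_I2 (x : R) :
    (W.Φ 2).eval x ^ 4 - W.b₄ * (W.Φ 2).eval x ^ 2 * W.Ψ₂Sq.eval x ^ 2 -
        2 * W.b₆ * (W.Φ 2).eval x * W.Ψ₂Sq.eval x ^ 3 - W.b₈ * W.Ψ₂Sq.eval x ^ 4 -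
        x * (W.Ψ₂Sq.eval x * W.preΨ₄.eval x ^ 2) =
      -(W.Ψ₃.eval x * (W.preΨ' 5).eval x) := by
  rw [eval_preΨ'_five, eval_Ψ₂Sq, eval_Φ_two, eval_preΨ₄, eval_Ψ₃]
  linear_combination (-4*x^12 - 5*x^11*W.b₂ - x^10*W.b₂^2 - 42*x^10*W.b₄ - 16*x^9*W.b₂*W.b₄
    - 93*x^9*W.b₆ - x^8*W.b₂^2*W.b₄ - 36*x^8*W.b₂*W.b₆ - 28*x^8*W.b₄^2 - 72*x^8*W.b₈
    - 3*x^7*W.b₂^2*W.b₆ - 4*x^7*W.b₂*W.b₄^2 - 30*x^7*W.b₂*W.b₈ - 84*x^7*W.b₄*W.b₆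
    - 3*x^6*W.b₂^2*W.b₈ - 14*x^6*W.b₂*W.b₄*W.b₆ - 4*x^6*W.b₄^3 - 60*x^6*W.b₄*W.b₈ - 39*x^6*W.b₆^2
    - 12*x^5*W.b₂*W.b₄*W.b₈ - 7*x^5*W.b₂*W.b₆^2 - 16*x^5*W.b₄^2*W.b₆ - 38*x^5*W.b₆*W.b₈
    - 8*x^4*W.b₂*W.b₆*W.b₈ - 12*x^4*W.b₄^2*W.b₈ - 15*x^4*W.b₄*W.b₆^2 - 4*x^4*W.b₈^2
    - x^3*W.b₂*W.b₈^2 - 16*x^3*W.b₄*W.b₆*W.b₈ - 4*x^3*W.b₆^3 - 2*x^2*W.b₄*W.b₈^2
    - 5*x^2*W.b₆^2*W.b₈ - x*W.b₆*W.b₈^2) * W.b_relation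

/-- `16 Ψ₃ = 2 g g'' - g'^2` for `g = Ψ₂Sq`. -/
theorem ident_Ψ₃_deriv (x : R) :
    16 * W.Ψ₃.eval x =
      2 * W.Ψ₂Sq.eval x * (24 * x + 2 * W.b₂) - (12 * x ^ 2 + 2 * W.b₂ * x + 2 * W.b₄) ^ 2 := by
  rw [eval_Ψ₂Sq, eval_Ψ₃]
  linear_combination 4 * W.b_relation

/-- (C1) Bezout certificate: `8 Δ` lies in the ideal generated by `g = Ψ₂Sq(x)` and `g'(x)`. -/
theorem ident_C1 (x : R) :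
    8 * W.Δ =
      (-12*x*W.b₂^2 + 288*x*W.b₄ - 2*W.b₂^3 + 60*W.b₂*W.b₄ - 216*W.b₆) * W.Ψ₂Sq.eval x +
      (4*x^2*W.b₂^2 - 96*x^2*W.b₄ + x*W.b₂^3 - 28*x*W.b₂*W.b₄ + 72*x*W.b₆ + W.b₂^2*W.b₄
        + 6*W.b₂*W.b₆ - 32*W.b₄^2) * (12 * x ^ 2 + 2 * W.b₂ * x + 2 * W.b₄) := by
  rw [eval_Ψ₂Sq, WeierstrassCurve.Δ]
  linear_combination (-2 * W.b₂^2) * W.b_relation

/-- If `Ψ₂Sq` and `Ψ₃` have a common root (in a domain where `2 ≠ 0`), then `Δ = 0`. -/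
theorem Δ_eq_zero_of_common_root [IsDomain R] (h2 : (2 : R) ≠ 0) (x : R)
    (hg : W.Ψ₂Sq.eval x = 0) (h3 : W.Ψ₃.eval x = 0) : W.Δ = 0 := by
  have hd : (12 * x ^ 2 + 2 * W.b₂ * x + 2 * W.b₄) ^ 2 = 0 := by
    have := ident_Ψ₃_deriv W x
    rw [hg, h3] at this
    linear_combination this
  have hd' : 12 * x ^ 2 + 2 * W.b₂ * x + 2 * W.b₄ = 0 := by
    simpa using hd
  have h8 : 8 * W.Δ = 0 := by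
    rw [ident_C1 W x, hg, hd']; ring
  have h8' : (8 : R) ≠ 0 := by
    have : (8 : R) = 2 ^ 3 := by norm_num
    rw [this]; exact pow_ne_zero 3 h2
  exact (mul_eq_zero.mp h8).resolve_left h8'

end Fermat.Agent.S51.Torsion
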