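import Mathlib
import Fermat.Agent.S51.TorsionAlg

/-!
# S51 piece (G)+(T), part 2: duplication on `x`-coordinates and small torsion

For a Weierstrass curve `W` over a field `F` (Mathlib's affine points `W.Point`):

* `double_some`: `x(2P) * Ψ₂Sq(x(P)) = Φ₂(x(P))`;
* `eval_Ψ₃_eq_zero_of_three_torsion`, `eval_preΨ'_five_eq_zero_of_five_torsion`:
  the `x`-coordinate of a nonzero 3-torsion (5-torsion) point is a root of `Ψ₃` (`preΨ' 5`);
* converses `three_torsion_of_root`, `five_torsion_of_root`.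
-/

set_option autoImplicit false

namespace Fermat.Agent.S51.Torsion

open Polynomial WeierstrassCurve WeierstrassCurve.Affine

variable {F : Type*} [Field F] {W : WeierstrassCurve.Affine F}

/-- On the curve, `Ψ₂Sq(x) = (y - negY x y)^2`. -/
theorem eval_Ψ₂Sq_eq_sq {x y : F} (h : W.Equation x y) :
    W.Ψ₂Sq.eval x = (y - W.negY x y) ^ 2 := by
  have heq := (W.equation_iff x y).mp h
  rw [eval_Ψ₂Sq, negY, WeierstrassCurve.b₂, WeierstrassCurve.b₄, WeierstrassCurve.b₆]
  linear_combination (-4 : F) * heq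

theorem eval_Ψ₂Sq_ne_zero_iff {x y : F} (h : W.Equation x y) :
    W.Ψ₂Sq.eval x ≠ 0 ↔ y ≠ W.negY x y := by
  rw [eval_Ψ₂Sq_eq_sq h, ne_eq, ne_eq, sq_eq_zero_iff, sub_eq_zero]

section

variable [DecidableEq F]

/-- The `x`-coordinate duplication formula: `addX * Ψ₂Sq(x) = Φ₂(x)`. -/
theorem addX_self_mul {x y : F} (h : W.Equation x y) (hy : y ≠ W.negY x y) :
    W.addX x x (W.slope x x y y) * W.Ψ₂Sq.eval x = (W.Φ 2).eval x := by
  have heq := (W.equation_iff x y).mp h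
  have hd : y - W.negY x y ≠ 0 := sub_ne_zero.mpr hy
  rw [eval_Ψ₂Sq_eq_sq h, slope_of_Y_ne rfl hy, eval_Φ_two, addX]
  have hℓ : (3 * x ^ 2 + 2 * W.a₂ * x + W.a₄ - W.a₁ * y) / (y - W.negY x y) * (y - W.negY x y) =
      3 * x ^ 2 + 2 * W.a₂ * x + W.a₄ - W.a₁ * y := div_mul_cancel₀ _ hd
  generalize (3 * x ^ 2 + 2 * W.a₂ * x + W.a₄ - W.a₁ * y) / (y - W.negY x y) = ℓ at hℓ
  have e : (ℓ ^ 2 + W.a₁ * ℓ - W.a₂ - x - x) * (y - W.negY x y) ^ 2 =
      (ℓ * (y - W.negY x y)) ^ 2 + W.a₁ * (ℓ * (y - W.negY x y)) * (y - W.negY x y) -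
        (W.a₂ + 2 * x) * (y - W.negY x y) ^ 2 := by ring
  rw [e, hℓ]
  simp only [negY, WeierstrassCurve.b₄, WeierstrassCurve.b₆, WeierstrassCurve.b₈]
  linear_combination (-8 * x - W.a₁ ^ 2 - 4 * W.a₂) * heq

/-- Doubling an affine point which is not 2-torsion. -/
theorem double_some {x y : F} (h : W.Nonsingular x y) (hy : y ≠ W.negY x y) :
    ∃ (x₂ y₂ : F) (h₂ : W.Nonsingular x₂ y₂),
      Point.some x y h + Point.some x y h = Point.some x₂ y₂ h₂ ∧
        x₂ * W.Ψ₂Sq.eval x = (W.Φ 2).eval x :=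
  ⟨_, _, _, Point.add_self_of_Y_ne hy, addX_self_mul h.1 hy⟩

theorem double_eq_zero_iff {x y : F} (h : W.Nonsingular x y) :
    Point.some x y h + Point.some x y h = 0 ↔ y = W.negY x y := by
  constructor
  · intro h0
    by_contra hy
    rw [Point.add_self_of_Y_ne hy] at h0
    exact Point.some_ne_zero _ h0
  · intro hy
    exact Point.add_self_of_Y_eq hy

omit [DecidableEq F] in
/-- Two affine points with the same `x`-coordinate are equal or opposite. -/
theorem eq_or_eq_neg_of_x_eq {x y y' : F} (h : W.Nonsingular x y) (h' : W.Nonsingular x y') :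
    Point.some x y h = Point.some x y' h' ∨ Point.some x y h = -Point.some x y' h' :=
  Point.X_eq_iff.mp rfl

/-- The `x`-coordinate of a nonzero 3-torsion point is a root of `Ψ₃`. -/
theorem eval_Ψ₃_eq_zero_of_three_torsion {x y : F} (h : W.Nonsingular x y)
    (h3 : Point.some x y h + Point.some x y h + Point.some x y h = 0) :
    W.Ψ₃.eval x = 0 := by
  by_cases hy : y = W.negY x y
  · rw [Point.add_self_of_Y_eq hy, zero_add] at h3
    exact absurd h3 (Point.some_ne_zero _)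
  · obtain ⟨x₂, y₂, h₂, h2P, hx₂⟩ := double_some h hy
    rw [h2P] at h3
    have hneg : Point.some x₂ y₂ h₂ = -Point.some x y h := eq_neg_of_add_eq_zero_left h3
    rw [Point.neg_some] at hneg
    have hx : x₂ = x := by
      injection hneg
    rw [hx] at hx₂
    rw [← ident_I0, hx₂, sub_self]

/-- Converse: a root of `Ψ₃` which is not a root of `Ψ₂Sq` gives a 3-torsion point. -/
theorem three_torsion_of_root {x y : F} (h : W.Nonsingular x y)
    (h3 : W.Ψ₃.eval x = 0) (h2 : W.Ψ₂Sq.eval x ≠ 0) :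
    Point.some x y h + Point.some x y h + Point.some x y h = 0 := by
  have hy : y ≠ W.negY x y := (eval_Ψ₂Sq_ne_zero_iff h.1).mp h2
  obtain ⟨x₂, y₂, h₂, h2P, hx₂⟩ := double_some h hy
  have hx : x₂ = x := by
    have := ident_I0 W x
    rw [h3] at this
    have h' : (x₂ - x) * W.Ψ₂Sq.eval x = 0 := by linear_combination hx₂ - this
    rcases mul_eq_zero.mp h' with h'' | h''
    · exact sub_eq_zero.mp h''
    · exact absurd h'' h2
  subst hx
  rw [h2P]
  rcases eq_or_eq_neg_of_x_eq h₂ h with hE | hE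
  · -- 2P = P, so P = 0: contradiction
    rw [hE] at h2P
    have : Point.some x₂ y h = 0 := by
      have := h2P
      exact add_eq_right.mp this
    exact absurd this (Point.some_ne_zero _)
  · rw [hE, neg_add_cancel]

/-- The `x`-coordinate of a nonzero 5-torsion point is a root of `preΨ' 5`. -/
theorem eval_preΨ'_five_eq_zero_of_five_torsion {x y : F} (h : W.Nonsingular x y)
    (h5 : Point.some x y h + Point.some x y h + (Point.some x y h + Point.some x y h) +
      Point.some x y h = 0) :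
    (W.preΨ' 5).eval x = 0 := by
  have hP0 : Point.some x y h ≠ 0 := Point.some_ne_zero _
  -- 2P ≠ 0
  have h2ne : Point.some x y h + Point.some x y h ≠ 0 := by
    intro h0
    rw [h0, add_zero, zero_add] at h5
    exact hP0 h5
  have hy : y ≠ W.negY x y := fun hy => h2ne ((double_eq_zero_iff h).mpr hy)
  obtain ⟨x₂, y₂, h₂, h2P, hx₂⟩ := double_some h hy
  -- 4P ≠ 0
  have h4ne : Point.some x y h + Point.some x y h +
      (Point.some x y h + Point.some x y h) ≠ 0 := by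
    intro h0
    rw [h0, zero_add] at h5
    exact hP0 h5
  have h5' := h5
  rw [h2P] at h4ne h5'
  have hy₂ : y₂ ≠ W.negY x₂ y₂ := fun hy => h4ne ((double_eq_zero_iff h₂).mpr hy)
  obtain ⟨x₄, y₄, h₄, h4P, hx₄⟩ := double_some h₂ hy₂
  rw [h4P] at h5'
  have hneg : Point.some x₄ y₄ h₄ = -Point.some x y h := eq_neg_of_add_eq_zero_left h5'
  rw [Point.neg_some] at hneg
  have hx : x₄ = x := by
    injection hneg
  rw [hx] at hx₄
  -- Ψ₃(x) ≠ 0
  have hB : W.Ψ₂Sq.eval x ≠ 0 := (eval_Ψ₂Sq_ne_zero_iff h.1).mpr hy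
  have h3ne : W.Ψ₃.eval x ≠ 0 := by
    intro h3
    have h3P := three_torsion_of_root h h3 hB
    -- 5P = 0 and 3P = 0 give 2P = 0
    apply h2ne
    have e : Point.some x y h + Point.some x y h + (Point.some x y h + Point.some x y h) +
        Point.some x y h = (Point.some x y h + Point.some x y h + Point.some x y h) +
          (Point.some x y h + Point.some x y h) := by abel
    rw [e, h3P, zero_add] at h5
    exact h5
  -- main computation
  have key := ident_I2 W x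
  have hI1 := ident_I1 W x
  rw [← hx₂] at key hI1
  rw [eval_Ψ₂Sq W x₂, eval_Φ_two W x₂] at hx₄
  have hmain : W.Ψ₃.eval x * (W.preΨ' 5).eval x = 0 := by
    have h1 : (x * (4 * x₂ ^ 3 + W.b₂ * x₂ ^ 2 + 2 * W.b₄ * x₂ + W.b₆) -
        (x₂ ^ 4 - W.b₄ * x₂ ^ 2 - 2 * W.b₆ * x₂ - W.b₈)) * W.Ψ₂Sq.eval x ^ 4 = 0 := by
      rw [hx₄, sub_self, zero_mul]
    linear_combination key + h1 - x * W.Ψ₂Sq.eval x * hI1
  exact (mul_eq_zero.mp hmain).resolve_left h3ne

/-- Converse: a root of `preΨ' 5` which is not a root of `Ψ₃` gives a 5-torsion point. -/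
theorem five_torsion_of_root {x y : F} (h : W.Nonsingular x y)
    (h5 : (W.preΨ' 5).eval x = 0) (h3 : W.Ψ₃.eval x ≠ 0) :
    Point.some x y h + Point.some x y h + (Point.some x y h + Point.some x y h) +
      Point.some x y h = 0 := by
  have e5 := eval_preΨ'_five W x
  rw [h5] at e5
  have hB : W.Ψ₂Sq.eval x ≠ 0 := by
    intro hB
    rw [hB] at e5
    apply h3
    have : W.Ψ₃.eval x ^ 3 = 0 := by linear_combination e5
    exact pow_eq_zero_iff (by norm_num) |>.mp this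
  have h4 : W.preΨ₄.eval x ≠ 0 := by
    intro h4
    rw [h4] at e5
    apply h3
    have : W.Ψ₃.eval x ^ 3 = 0 := by linear_combination e5
    exact pow_eq_zero_iff (by norm_num) |>.mp this
  have hy : y ≠ W.negY x y := (eval_Ψ₂Sq_ne_zero_iff h.1).mp hB
  obtain ⟨x₂, y₂, h₂, h2P, hx₂⟩ := double_some h hy
  have key := ident_I2 W x
  have hI1 := ident_I1 W x
  rw [h5, mul_zero, neg_zero] at key
  rw [← hx₂] at key hI1
  -- Ψ₂Sq(x₂) * B^3 = preΨ₄(x)^2 ≠ 0
  have hB₂ : (4 * x₂ ^ 3 + W.b₂ * x₂ ^ 2 + 2 * W.b₄ * x₂ + W.b₆) * W.Ψ₂Sq.eval x ^ 3 =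
      W.preΨ₄.eval x ^ 2 := by
    linear_combination hI1
  have hB₂ne : W.Ψ₂Sq.eval x₂ ≠ 0 := by
    intro h0
    rw [eval_Ψ₂Sq W x₂] at h0
    rw [h0, zero_mul] at hB₂
    exact h4 (pow_eq_zero_iff (by norm_num) |>.mp hB₂.symm)
  have hy₂ : y₂ ≠ W.negY x₂ y₂ := (eval_Ψ₂Sq_ne_zero_iff h₂.1).mp hB₂ne
  obtain ⟨x₄, y₄, h₄, h4P, hx₄⟩ := double_some h₂ hy₂
  have hx : x₄ = x := by
    have hne := hB₂ne
    rw [eval_Ψ₂Sq W x₂] at hne hx₄
    rw [eval_Φ_two W x₂] at hx₄
    have h' : (x₄ - x) * ((4 * x₂ ^ 3 + W.b₂ * x₂ ^ 2 + 2 * W.b₄ * x₂ + W.b₆) *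
        W.Ψ₂Sq.eval x ^ 4) = 0 := by
      linear_combination W.Ψ₂Sq.eval x ^ 4 * hx₄ + key - x * W.Ψ₂Sq.eval x * hB₂
    rcases mul_eq_zero.mp h' with h'' | h''
    · exact sub_eq_zero.mp h''
    · exact absurd h'' (mul_ne_zero hne (pow_ne_zero 4 hB))
  subst hx
  rw [h2P, h4P]
  rcases eq_or_eq_neg_of_x_eq h₄ h with hE | hE
  · -- 4P = P, hence 3P = 0, contradiction with Ψ₃(x) ≠ 0
    exfalso
    apply h3
    apply eval_Ψ₃_eq_zero_of_three_torsion h
    have h4P' : Point.some x₄ y h + Point.some x₄ y h +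
        (Point.some x₄ y h + Point.some x₄ y h) = Point.some x₄ y h := by rw [h2P, h4P, hE]
    have e : Point.some x₄ y h + Point.some x₄ y h + Point.some x₄ y h + Point.some x₄ y h =
        Point.some x₄ y h + Point.some x₄ y h +
        (Point.some x₄ y h + Point.some x₄ y h) := by abel
    rw [h4P'] at e
    exact add_eq_right.mp e
  · rw [hE, neg_add_cancel]

/-- The two abscissas `x(P)`, `x(2P)` of a point of order 5 are exchanged by duplication. -/
theorem five_cycle {x y : F} (h : W.Nonsingular x y)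
    (h5 : Point.some x y h + Point.some x y h + (Point.some x y h + Point.some x y h) +
      Point.some x y h = 0) :
    ∃ (x₂ y₂ : F) (h₂ : W.Nonsingular x₂ y₂),
      Point.some x y h + Point.some x y h = Point.some x₂ y₂ h₂ ∧ x₂ ≠ x ∧
      W.Ψ₂Sq.eval x ≠ 0 ∧ W.Ψ₂Sq.eval x₂ ≠ 0 ∧
      x₂ * W.Ψ₂Sq.eval x = (W.Φ 2).eval x ∧ x * W.Ψ₂Sq.eval x₂ = (W.Φ 2).eval x₂ := by
  have hP0 : Point.some x y h ≠ 0 := Point.some_ne_zero _
  have h2ne : Point.some x y h + Point.some x y h ≠ 0 := by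
    intro h0
    rw [h0, add_zero, zero_add] at h5
    exact hP0 h5
  have hy : y ≠ W.negY x y := fun hy => h2ne ((double_eq_zero_iff h).mpr hy)
  obtain ⟨x₂, y₂, h₂, h2P, hx₂⟩ := double_some h hy
  have h4ne : Point.some x y h + Point.some x y h +
      (Point.some x y h + Point.some x y h) ≠ 0 := by
    intro h0
    rw [h0, zero_add] at h5
    exact hP0 h5
  have h5' := h5
  rw [h2P] at h4ne h5'
  have hy₂ : y₂ ≠ W.negY x₂ y₂ := fun hy => h4ne ((double_eq_zero_iff h₂).mpr hy)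
  obtain ⟨x₄, y₄, h₄, h4P, hx₄⟩ := double_some h₂ hy₂
  rw [h4P] at h5'
  have hneg : Point.some x₄ y₄ h₄ = -Point.some x y h := eq_neg_of_add_eq_zero_left h5'
  rw [Point.neg_some] at hneg
  have hx : x₄ = x := by
    injection hneg
  rw [hx] at hx₄
  have hB : W.Ψ₂Sq.eval x ≠ 0 := (eval_Ψ₂Sq_ne_zero_iff h.1).mpr hy
  have hB₂ : W.Ψ₂Sq.eval x₂ ≠ 0 := (eval_Ψ₂Sq_ne_zero_iff h₂.1).mpr hy₂
  refine ⟨x₂, y₂, h₂, h2P, ?_, hB, hB₂, hx₂, hx₄⟩
  -- x₂ ≠ x
  intro hxx
  subst hxx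
  rcases eq_or_eq_neg_of_x_eq h₂ h with hE | hE
  · -- 2P = P
    rw [hE] at h2P
    exact hP0 (add_eq_right.mp h2P)
  · -- 2P = -P, so 3P = 0, so 2P = 0
    rw [hE] at h2P
    have h3P : Point.some x₂ y h + Point.some x₂ y h + Point.some x₂ y h = 0 := by
      rw [h2P, neg_add_cancel]
    apply h2ne
    have e : Point.some x₂ y h + Point.some x₂ y h + (Point.some x₂ y h + Point.some x₂ y h) +
        Point.some x₂ y h = (Point.some x₂ y h + Point.some x₂ y h + Point.some x₂ y h) +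
          (Point.some x₂ y h + Point.some x₂ y h) := by abel
    rw [e, h3P, zero_add] at h5
    exact h5

end

end Fermat.Agent.S51.Torsion
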