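import Mathlib
import Fermat.Agent.S51.TorsionPoint

/-!
# S51 piece (G)+(T), part 3: existence of points of order 3 and 5

Over an algebraically closed field in which `2`, `3`, `5` are invertible, a Weierstrass
curve with `Δ ≠ 0` has a nonzero point killed by `3` and a nonzero point killed by `5`.
-/

set_option autoImplicit false

namespace Fermat.Agent.S51.Torsion

open Polynomial WeierstrassCurve WeierstrassCurve.Affine

variable {F : Type*} [Field F] {W : WeierstrassCurve.Affine F}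

/-- Over an algebraically closed field with `2 ≠ 0`, every `x` is the abscissa of a point. -/
theorem exists_equation [IsAlgClosed F] (h2 : (2 : F) ≠ 0) (x : F) : ∃ y : F, W.Equation x y := by
  obtain ⟨z, hz⟩ := IsAlgClosed.exists_eq_mul_self (W.Ψ₂Sq.eval x)
  refine ⟨(z - (W.a₁ * x + W.a₃)) / 2, ?_⟩
  rw [W.equation_iff]
  have hy2 : 2 * ((z - (W.a₁ * x + W.a₃)) / 2) = z - (W.a₁ * x + W.a₃) := by
    field_simp
  generalize (z - (W.a₁ * x + W.a₃)) / 2 = y at hy2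
  rw [eval_Ψ₂Sq, WeierstrassCurve.b₂, WeierstrassCurve.b₄, WeierstrassCurve.b₆] at hz
  have h4 : (4 : F) ≠ 0 := by
    have : (4 : F) = 2 * 2 := by norm_num
    rw [this]; exact mul_ne_zero h2 h2
  apply mul_left_cancel₀ h4
  linear_combination (2 * y + W.a₁ * x + W.a₃ + z) * hy2 - hz

section

variable [DecidableEq F] [IsAlgClosed F]

/-- Existence of a nonzero point killed by `3`. -/
theorem exists_three_torsion (hΔ : W.Δ ≠ 0) (h2 : (2 : F) ≠ 0) (h3 : (3 : F) ≠ 0) :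
    ∃ P : W.Point, P ≠ 0 ∧ P + P + P = 0 := by
  have hdeg : W.Ψ₃.degree ≠ 0 := by
    apply degree_ne_of_natDegree_ne
    rw [W.natDegree_Ψ₃ h3]; norm_num
  obtain ⟨x, hx⟩ := IsAlgClosed.exists_root W.Ψ₃ hdeg
  obtain ⟨y, hy⟩ := exists_equation (W := W) h2 x
  have hns : W.Nonsingular x y := (W.equation_iff_nonsingular_of_Δ_ne_zero hΔ).mp hy
  have hB : W.Ψ₂Sq.eval x ≠ 0 := fun hB => hΔ (Δ_eq_zero_of_common_root W h2 x hB hx)
  exact ⟨Point.some x y hns, Point.some_ne_zero _, three_torsion_of_root hns hx hB⟩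

omit [DecidableEq F] [IsAlgClosed F] in
/-- A root of `preΨ' 5` is not a root of `Ψ₃` (when `Δ ≠ 0`, `2 ≠ 0`). -/
theorem eval_Ψ₃_ne_zero_of_eval_preΨ'_five (hΔ : W.Δ ≠ 0) (h2 : (2 : F) ≠ 0) {x : F}
    (h5 : (W.preΨ' 5).eval x = 0) : W.Ψ₃.eval x ≠ 0 := by
  intro h3
  have hB : W.Ψ₂Sq.eval x ≠ 0 := fun hB => hΔ (Δ_eq_zero_of_common_root W h2 x hB h3)
  have e5 := eval_preΨ'_five W x
  rw [h5, h3] at e5
  have h4 : W.preΨ₄.eval x = 0 := by
    have : W.preΨ₄.eval x * W.Ψ₂Sq.eval x ^ 2 = 0 := by linear_combination -e5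
    exact (mul_eq_zero.mp this).resolve_right (pow_ne_zero 2 hB)
  have hI0 := ident_I0 W x
  have hI1 := ident_I1 W x
  rw [h3] at hI0
  have hA : (W.Φ 2).eval x = x * W.Ψ₂Sq.eval x := by linear_combination -hI0
  rw [h4, hA] at hI1
  have e2 := eval_Ψ₂Sq W x
  have : W.Ψ₂Sq.eval x ^ 4 = 0 := by
    linear_combination hI1 + W.Ψ₂Sq.eval x ^ 3 * e2
  exact hB (pow_eq_zero_iff (by norm_num) |>.mp this)

/-- Existence of a nonzero point killed by `5`. -/
theorem exists_five_torsion (hΔ : W.Δ ≠ 0) (h2 : (2 : F) ≠ 0) (h5 : (5 : F) ≠ 0) :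
    ∃ P : W.Point, P ≠ 0 ∧ P + P + (P + P) + P = 0 := by
  have hdeg : (W.preΨ' 5).degree ≠ 0 := by
    apply degree_ne_of_natDegree_ne
    rw [W.natDegree_preΨ' (n := 5) (by exact_mod_cast h5)]
    decide
  obtain ⟨x, hx⟩ := IsAlgClosed.exists_root (W.preΨ' 5) hdeg
  obtain ⟨y, hy⟩ := exists_equation (W := W) h2 x
  have hns : W.Nonsingular x y := (W.equation_iff_nonsingular_of_Δ_ne_zero hΔ).mp hy
  have h3 : W.Ψ₃.eval x ≠ 0 := eval_Ψ₃_ne_zero_of_eval_preΨ'_five hΔ h2 hx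
  exact ⟨Point.some x y hns, Point.some_ne_zero _, five_torsion_of_root hns hx h3⟩

end

end Fermat.Agent.S51.Torsion
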