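import Mathlib
import Fermat.Prelude.Def_FLTPrelim_GaloisRep
import Fermat.Agent.S51.TorsionExists

/-!
# S51 piece (G)+(T), part 4: Galois-stable lines in `E[3]` and `E[5]`

For a Weierstrass curve `E` over `ℚ` with `Δ ≠ 0`:

* `exists_rat_root_Ψ₃_of_not_irreducible`: if the mod-3 representation is not irreducible
  (in the Prelude's sense), then `Ψ₃` has a rational root;
* `exists_five_cycle_of_not_irreducible`: if the mod-5 representation is not irreducible, there
  are `x₁ ≠ x₂` in `ℚ̄` with rational sum and product, exchanged by the `x`-duplication map.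
-/

set_option autoImplicit false

namespace Fermat.Agent.S51.Torsion

open Polynomial WeierstrassCurve WeierstrassCurve.Affine WeierstrassCurve.Affine.Point

/-! ### Cardinality of torsion -/

section card

variable {F : Type*} [Field F] {W : WeierstrassCurve.Affine F}

/-- The coordinates of a point (`none` for the point at infinity). -/
def toOpt : W.Point → Option (F × F)
  | .zero => none
  | .some x y _ => some (x, y)

theorem toOpt_injective : Function.Injective (toOpt (W := W)) := by
  rintro (_ | ⟨x₁, y₁, h₁⟩) (_ | ⟨x₂, y₂, h₂⟩) h <;>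
    simp only [toOpt, Option.some.injEq, Prod.mk.injEq, reduceCtorEq] at h
  · rfl
  · obtain ⟨rfl, rfl⟩ := h; rfl

/-- The quadratic polynomial in `y` cutting out the points with abscissa `x`. -/
noncomputable def quadY (W : WeierstrassCurve.Affine F) (x : F) : F[X] :=
  X ^ 2 + C (W.a₁ * x + W.a₃) * X - C (x ^ 3 + W.a₂ * x ^ 2 + W.a₄ * x + W.a₆)

theorem natDegree_quadY_le (x : F) : (quadY W x).natDegree ≤ 2 := by
  rw [quadY]; compute_degree

theorem quadY_ne_zero (x : F) : quadY W x ≠ 0 := by
  intro h
  have : (quadY W x).coeff 2 = 1 := by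
    rw [quadY]; compute_degree!
  rw [h] at this
  simp at this

theorem quadY_isRoot_iff (x y : F) : (quadY W x).IsRoot y ↔ W.Equation x y := by
  rw [W.equation_iff, IsRoot, quadY]
  simp only [eval_sub, eval_add, eval_pow, eval_X, eval_mul, eval_C]
  constructor
  · intro h; linear_combination h
  · intro h; linear_combination h

variable [DecidableEq F]

/-- If the abscissas of the nonzero `n`-torsion points are roots of a nonzero polynomial `p`,
then the `n`-torsion is finite of cardinality at most `2 * deg p + 1`. -/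
theorem torsion_card_le (n : ℕ) (p : F[X]) (hp : p ≠ 0)
    (hroot : ∀ (x y : F) (h : W.Nonsingular x y),
      (n : ℤ) • Point.some x y h = 0 → p.eval x = 0) :
    Finite (Submodule.torsionBy ℤ W.Point (n : ℤ)) ∧
      Nat.card (Submodule.torsionBy ℤ W.Point (n : ℤ)) ≤ 2 * p.natDegree + 1 := by
  classical
  let T : Finset (F × F) :=
    p.roots.toFinset.biUnion fun x => (quadY W x).roots.toFinset.image fun y => (x, y)
  have hT : T.card ≤ 2 * p.natDegree := by
    calc T.card ≤ ∑ x ∈ p.roots.toFinset,
          ((quadY W x).roots.toFinset.image fun y => (x, y)).card := Finset.card_biUnion_le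
      _ ≤ ∑ _x ∈ p.roots.toFinset, 2 := by
          apply Finset.sum_le_sum
          intro x _
          calc ((quadY W x).roots.toFinset.image fun y => (x, y)).card
              ≤ (quadY W x).roots.toFinset.card := Finset.card_image_le
            _ ≤ Multiset.card (quadY W x).roots := Multiset.toFinset_card_le _
            _ ≤ (quadY W x).natDegree := card_roots' _
            _ ≤ 2 := natDegree_quadY_le x
      _ = p.roots.toFinset.card * 2 := by rw [Finset.sum_const, smul_eq_mul]
      _ ≤ p.natDegree * 2 := by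
          apply Nat.mul_le_mul_right
          exact (Multiset.toFinset_card_le _).trans (card_roots' _)
      _ = 2 * p.natDegree := by ring
  have hmem : ∀ P : Submodule.torsionBy ℤ W.Point (n : ℤ),
      toOpt (P : W.Point) ∈ Finset.insertNone T := by
    rintro ⟨P, hP⟩
    rw [Finset.mem_insertNone]
    intro a ha
    cases P with
    | zero => simp [toOpt] at ha
    | some x y h =>
      simp only [toOpt, Option.mem_def, Option.some.injEq] at ha
      subst ha
      have hx : p.eval x = 0 := hroot x y h ((Submodule.mem_torsionBy_iff _ _).mp hP)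
      simp only [T, Finset.mem_biUnion, Finset.mem_image, Multiset.mem_toFinset]
      refine ⟨x, (mem_roots hp).mpr hx, y, ?_, rfl⟩
      exact (mem_roots (quadY_ne_zero x)).mpr ((quadY_isRoot_iff x y).mpr h.1)
  let g : Submodule.torsionBy ℤ W.Point (n : ℤ) → ↥(Finset.insertNone T) :=
    fun P => ⟨toOpt (P : W.Point), hmem P⟩
  have hg : Function.Injective g := by
    intro P Q hPQ
    apply Subtype.ext
    apply toOpt_injective
    exact congrArg Subtype.val hPQ
  refine ⟨Finite.of_injective g hg, ?_⟩
  calc Nat.card (Submodule.torsionBy ℤ W.Point (n : ℤ))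
      ≤ Nat.card ↥(Finset.insertNone T) := Nat.card_le_card_of_injective g hg
    _ = (Finset.insertNone T).card := by
        rw [Nat.card_eq_fintype_card, Fintype.card_coe]
    _ = T.card + 1 := Finset.card_insertNone T
    _ ≤ 2 * p.natDegree + 1 := by omega

theorem three_zsmul (P : W.Point) : ((3 : ℕ) : ℤ) • P = P + P + P := by
  rw [Nat.cast_ofNat, show (3 : ℤ) = 1 + 1 + 1 by norm_num, add_smul, add_smul, one_smul]

theorem five_zsmul (P : W.Point) : ((5 : ℕ) : ℤ) • P = P + P + (P + P) + P := by
  rw [Nat.cast_ofNat, show (5 : ℤ) = 1 + 1 + (1 + 1) + 1 by norm_num, add_smul, add_smul,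
    add_smul, one_smul]

/-- `#E[3] ≤ 9`. -/
theorem torsion_three_card (h3 : (3 : F) ≠ 0) :
    Finite (Submodule.torsionBy ℤ W.Point ((3 : ℕ) : ℤ)) ∧
      Nat.card (Submodule.torsionBy ℤ W.Point ((3 : ℕ) : ℤ)) ≤ 9 := by
  obtain ⟨hfin, hcard⟩ := torsion_card_le (W := W) 3 W.Ψ₃ (W.Ψ₃_ne_zero h3) (by
    intro x y h hP
    rw [three_zsmul] at hP
    exact eval_Ψ₃_eq_zero_of_three_torsion h hP)
  refine ⟨hfin, hcard.trans ?_⟩
  have := W.natDegree_Ψ₃_le
  omega

/-- `#E[5] ≤ 25`. -/
theorem torsion_five_card (h5 : (5 : F) ≠ 0) :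
    Finite (Submodule.torsionBy ℤ W.Point ((5 : ℕ) : ℤ)) ∧
      Nat.card (Submodule.torsionBy ℤ W.Point ((5 : ℕ) : ℤ)) ≤ 25 := by
  obtain ⟨hfin, hcard⟩ := torsion_card_le (W := W) 5 (W.preΨ' 5)
    (W.preΨ'_ne_zero (n := 5) (by exact_mod_cast h5)) (by
    intro x y h hP
    rw [five_zsmul] at hP
    exact eval_preΨ'_five_eq_zero_of_five_torsion h hP)
  refine ⟨hfin, hcard.trans ?_⟩
  have h := W.natDegree_preΨ'_le 5
  have e : (5 ^ 2 - if Even 5 then 4 else 1) / 2 = 12 := by decide
  rw [e] at h
  omega

end card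

/-! ### Linear algebra: proper nonzero subspaces of a small `𝔽_p`-vector space are lines -/

theorem exists_generator_of_proper {p : ℕ} [Fact p.Prime] {V : Type*} [AddCommGroup V]
    [Module (ZMod p) V] [Finite V] (hcard : Nat.card V < p ^ 3) (N : Submodule (ZMod p) V)
    (h0 : N ≠ ⊥) (h1 : N ≠ ⊤) :
    ∃ v ∈ N, v ≠ 0 ∧ ∀ w ∈ N, ∃ c : ZMod p, c • v = w := by
  have hV : Nat.card V = p ^ Module.finrank (ZMod p) V := by
    have := Module.natCard_eq_pow_finrank (K := ZMod p) (V := V)
    rwa [Nat.card_zmod] at this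
  have hlt : Module.finrank (ZMod p) V < 3 := by
    rw [hV] at hcard
    exact (Nat.pow_lt_pow_iff_right (Fact.out : p.Prime).one_lt).mp hcard
  have hN : Module.finrank (ZMod p) N < Module.finrank (ZMod p) V := Submodule.finrank_lt h1
  have hN0 : Module.finrank (ZMod p) N ≠ 0 := by
    rwa [Ne, Submodule.finrank_eq_zero]
  have hN1 : Module.finrank (ZMod p) N = 1 := by omega
  obtain ⟨v, hv, hspan⟩ := finrank_eq_one_iff'.mp hN1
  refine ⟨v.1, v.2, fun h => hv (Subtype.ext h), fun w hw => ?_⟩
  obtain ⟨c, hc⟩ := hspan ⟨w, hw⟩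
  exact ⟨c, congrArg Subtype.val hc⟩

/-- In a `ZMod n`-module, scalar multiplication by `c` is `c.val`-fold addition. -/
theorem zmod_smul_eq_val_nsmul {n : ℕ} [NeZero n] {V : Type*} [AddCommGroup V]
    [Module (ZMod n) V] (c : ZMod n) (v : V) : c • v = c.val • v := by
  conv_lhs => rw [← ZMod.natCast_zmod_val c]
  exact Nat.cast_smul_eq_nsmul (ZMod n) c.val v

/-! ### Rationality of Galois-fixed elements of `ℚ̄` -/

theorem isAlgClosure_rat : IsAlgClosure ℚ (AlgebraicClosure ℚ) := by
  constructor
  · infer_instance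
  · constructor
    intro x
    have h : (DivisionRing.toRatAlgebra : Algebra ℚ (AlgebraicClosure ℚ)) =
      AlgebraicClosure.instAlgebra ℚ := Subsingleton.elim _ _
    have hx := @Algebra.IsAlgebraic.isAlgebraic ℚ (AlgebraicClosure ℚ) _ _
      (AlgebraicClosure.instAlgebra ℚ) _ x
    rw [← h] at hx
    exact hx

theorem isGalois_rat : IsGalois ℚ (AlgebraicClosure ℚ) :=
  haveI := isAlgClosure_rat
  IsAlgClosure.isGalois ℚ (AlgebraicClosure ℚ)

/-- An element of `ℚ̄` fixed by every automorphism is rational. -/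
theorem exists_rat_of_fixed (x : AlgebraicClosure ℚ)
    (h : ∀ σ : AlgebraicClosure ℚ ≃ₐ[ℚ] AlgebraicClosure ℚ, σ x = x) :
    ∃ q : ℚ, algebraMap ℚ (AlgebraicClosure ℚ) q = x := by
  have := isGalois_rat
  exact (InfiniteGalois.mem_range_algebraMap_iff_fixed x).mpr h

end Fermat.Agent.S51.Torsion
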