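import Mathlib
import Fermat.Prelude.Def_FLTPrelim_GaloisRep
import Fermat.Agent.S51.TorsionLine

/-!
# S51 piece (G)+(T), part 5: consequences of reducibility of `E[3]`, `E[5]`

For a Weierstrass curve `E` over `ℚ` with `Δ ≠ 0`:

* `exists_rat_root_Ψ₃_of_not_irreducible`: if the mod-3 representation is not irreducible
  (in the Prelude's sense), then `Ψ₃` has a rational root;
* `exists_five_cycle_of_not_irreducible`: if the mod-5 representation is not irreducible, there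
  are `x₁ ≠ x₂` in `ℚ̄` with rational sum and product, exchanged by the `x`-duplication map.
-/

set_option autoImplicit false

namespace Fermat.Agent.S51.Torsion

open Polynomial WeierstrassCurve WeierstrassCurve.Affine WeierstrassCurve.Affine.Point

/-- The abscissa of a point (`none` for the point at infinity). -/
def xo {F : Type*} [Field F] {W : WeierstrassCurve.Affine F} : W.Point → Option F
  | .zero => none
  | .some x _ _ => some x

theorem xo_neg {F : Type*} [Field F] {W : WeierstrassCurve.Affine F} (P : W.Point) :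
    xo (-P) = xo P := by
  cases P <;> rfl

local notation "Qbar" => AlgebraicClosure ℚ

variable (E : WeierstrassCurve.Affine ℚ)

theorem xo_smul (σ : Qbar ≃ₐ[ℚ] Qbar) (P : (E⁄Qbar).Point) :
    xo (σ • P) = (xo P).map σ := by
  cases P <;> rfl

theorem baseChange_Δ_ne_zero (hΔ : E.Δ ≠ 0) : (E⁄Qbar).Δ ≠ 0 := by
  have : (E⁄Qbar).Δ = algebraMap ℚ Qbar E.Δ := WeierstrassCurve.map_Δ E (algebraMap ℚ Qbar)
  rw [this]
  exact (_root_.map_ne_zero _).mpr hΔ

/-- A non-irreducible representation with nontrivial underlying space has a proper nonzero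
stable subspace. -/
theorem exists_stable_of_not_irreducible (n : ℕ)
    (hnt : Nontrivial (Submodule.torsionBy ℤ (E⁄Qbar).Point (n : ℤ)))
    (hred : ¬ GaloisRepIsIrreducible (K := AlgebraicClosure ℚ) ℚ E n) :
    ∃ N : Submodule (ZMod n) (Submodule.torsionBy ℤ (E⁄Qbar).Point (n : ℤ)),
      IsGaloisStable ℚ N ∧ N ≠ ⊥ ∧ N ≠ ⊤ := by
  by_contra hcon
  apply hred
  refine ⟨hnt, fun N hN => ?_⟩
  by_contra h
  rw [not_or] at h
  exact hcon ⟨N, hN, h.1, h.2⟩

/-- If the mod-3 representation of `E` is not irreducible, `Ψ₃` has a rational root. -/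
theorem exists_rat_root_Ψ₃_of_not_irreducible (hΔ : E.Δ ≠ 0)
    (hred : ¬ GaloisRepIsIrreducible (K := AlgebraicClosure ℚ) ℚ E 3) :
    ∃ x : ℚ, E.Ψ₃.eval x = 0 := by
  have hΔK := baseChange_Δ_ne_zero E hΔ
  have h2 : (2 : Qbar) ≠ 0 := two_ne_zero
  have h3 : (3 : Qbar) ≠ 0 := three_ne_zero
  obtain ⟨P, hP0, hP3⟩ := exists_three_torsion hΔK h2 h3
  have hnt : Nontrivial (Submodule.torsionBy ℤ (E⁄Qbar).Point ((3 : ℕ) : ℤ)) := by
    refine ⟨⟨⟨P, ?_⟩, 0, ?_⟩⟩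
    · rw [Submodule.mem_torsionBy_iff, three_zsmul]; exact hP3
    · intro h; exact hP0 (congrArg Subtype.val h)
  obtain ⟨N, hstab, hN0, hN1⟩ := exists_stable_of_not_irreducible E 3 hnt hred
  obtain ⟨hfin, hcard⟩ := torsion_three_card (W := E⁄Qbar) h3
  have := hfin
  have : Fact (Nat.Prime 3) := ⟨by norm_num⟩
  obtain ⟨v, hvN, hv0, hgen⟩ := exists_generator_of_proper (p := 3) (by omega) N hN0 hN1
  obtain ⟨Q, hQ⟩ := v
  cases Q with
  | zero => exact absurd rfl hv0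
  | some x y h =>
    have hQ3 : Point.some x y h + Point.some x y h + Point.some x y h = 0 := by
      rw [← three_zsmul]; exact (Submodule.mem_torsionBy_iff _ _).mp hQ
    have hfix : ∀ σ : Qbar ≃ₐ[ℚ] Qbar, σ x = x := by
      intro σ
      obtain ⟨c, hc⟩ := hgen _ (hstab σ _ hvN)
      rw [zmod_smul_eq_val_nsmul] at hc
      have hc' : c.val • (Point.some x y h : (E⁄Qbar).Point) = σ • Point.some x y h := by
        have := congrArg Subtype.val hc
        rwa [AddSubmonoidClass.coe_nsmul] at this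
      have hx := congrArg xo hc'
      rw [xo_smul] at hx
      have hlt : c.val < 3 := ZMod.val_lt c
      interval_cases hcv : c.val
      · rw [zero_nsmul] at hx; simp [xo] at hx
      · rw [one_nsmul] at hx
        simpa [xo] using hx.symm
      · rw [two_nsmul, eq_neg_of_add_eq_zero_left hQ3, xo_neg] at hx
        simpa [xo] using hx.symm
    obtain ⟨x₀, hx₀⟩ := exists_rat_of_fixed x hfix
    refine ⟨x₀, ?_⟩
    have hroot : (E⁄Qbar).Ψ₃.eval x = 0 := eval_Ψ₃_eq_zero_of_three_torsion h hQ3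
    have e : (E⁄Qbar).Ψ₃ = E.Ψ₃.map (algebraMap ℚ Qbar) := WeierstrassCurve.map_Ψ₃ E _
    rw [e, ← hx₀, eval_map, eval₂_at_apply] at hroot
    exact (map_eq_zero _).mp hroot

/-- If the mod-5 representation of `E` is not irreducible, there is a Galois-stable pair
`{x₁, x₂}` of abscissas of points of order 5, exchanged by duplication. -/
theorem exists_five_cycle_of_not_irreducible (hΔ : E.Δ ≠ 0)
    (hred : ¬ GaloisRepIsIrreducible (K := AlgebraicClosure ℚ) ℚ E 5) :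
    ∃ (s t : ℚ) (x₁ x₂ : Qbar),
      x₁ + x₂ = algebraMap ℚ Qbar s ∧ x₁ * x₂ = algebraMap ℚ Qbar t ∧ x₁ ≠ x₂ ∧
      (E⁄Qbar).Ψ₂Sq.eval x₁ ≠ 0 ∧ (E⁄Qbar).Ψ₂Sq.eval x₂ ≠ 0 ∧
      x₂ * (E⁄Qbar).Ψ₂Sq.eval x₁ = ((E⁄Qbar).Φ 2).eval x₁ ∧
      x₁ * (E⁄Qbar).Ψ₂Sq.eval x₂ = ((E⁄Qbar).Φ 2).eval x₂ := by
  have hΔK := baseChange_Δ_ne_zero E hΔ
  have h2 : (2 : Qbar) ≠ 0 := two_ne_zero
  have h5 : (5 : Qbar) ≠ 0 := by norm_num
  obtain ⟨P, hP0, hP5⟩ := exists_five_torsion hΔK h2 h5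
  have hnt : Nontrivial (Submodule.torsionBy ℤ (E⁄Qbar).Point ((5 : ℕ) : ℤ)) := by
    refine ⟨⟨⟨P, ?_⟩, 0, ?_⟩⟩
    · rw [Submodule.mem_torsionBy_iff, five_zsmul]; exact hP5
    · intro h; exact hP0 (congrArg Subtype.val h)
  obtain ⟨N, hstab, hN0, hN1⟩ := exists_stable_of_not_irreducible E 5 hnt hred
  obtain ⟨hfin, hcard⟩ := torsion_five_card (W := E⁄Qbar) h5
  have := hfin
  have : Fact (Nat.Prime 5) := ⟨by norm_num⟩
  obtain ⟨v, hvN, hv0, hgen⟩ := exists_generator_of_proper (p := 5) (by omega) N hN0 hN1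
  obtain ⟨Q, hQ⟩ := v
  cases Q with
  | zero => exact absurd rfl hv0
  | some x₁ y₁ h =>
    have hQ5 : Point.some x₁ y₁ h + Point.some x₁ y₁ h +
        (Point.some x₁ y₁ h + Point.some x₁ y₁ h) + Point.some x₁ y₁ h = 0 := by
      rw [← five_zsmul]; exact (Submodule.mem_torsionBy_iff _ _).mp hQ
    obtain ⟨x₂, y₂, h₂, h2P, hne, hB₁, hB₂, hx₂, hx₁⟩ := five_cycle h hQ5
    -- abbreviations
    set A : (E⁄Qbar).Point := Point.some x₁ y₁ h with hA
    have hxoA : xo A = Option.some x₁ := rfl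
    have hxoAA : xo (A + A) = Option.some x₂ := by rw [h2P]; rfl
    have h4 : A + A + (A + A) = -A := eq_neg_of_add_eq_zero_left hQ5
    have hperm : ∀ σ : Qbar ≃ₐ[ℚ] Qbar,
        (σ x₁ = x₁ ∧ σ x₂ = x₂) ∨ (σ x₁ = x₂ ∧ σ x₂ = x₁) := by
      intro σ
      obtain ⟨c, hc⟩ := hgen _ (hstab σ _ hvN)
      rw [zmod_smul_eq_val_nsmul] at hc
      have hc' : c.val • A = σ • A := by
        have := congrArg Subtype.val hc
        rwa [AddSubmonoidClass.coe_nsmul] at this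
      have hc2 : c.val • A + c.val • A = σ • (A + A) := by
        have e : σ • (A + A) = σ • A + σ • A := smul_add σ A A
        rw [e, hc']
      have hx := congrArg xo hc'
      have hx2 := congrArg xo hc2
      rw [xo_smul, hxoA] at hx
      rw [xo_smul, hxoAA] at hx2
      have hlt : c.val < 5 := ZMod.val_lt c
      interval_cases hcv : c.val
      · rw [zero_nsmul] at hx; simp [xo] at hx
      · left
        rw [one_nsmul] at hx hx2
        rw [hxoA] at hx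
        rw [hxoAA] at hx2
        exact ⟨by simpa using hx.symm, by simpa using hx2.symm⟩
      · right
        have e1 : (2 : ℕ) • A = A + A := two_nsmul A
        rw [e1, hxoAA] at hx
        rw [e1, h4, xo_neg, hxoA] at hx2
        exact ⟨by simpa using hx.symm, by simpa using hx2.symm⟩
      · right
        have e1 : (3 : ℕ) • A = -(A + A) := by
          have : (3 : ℕ) • A - -(A + A) = A + A + (A + A) + A := by
            rw [show (3 : ℕ) = 1 + 1 + 1 by norm_num, add_nsmul, add_nsmul, one_nsmul]; abel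
          rw [hQ5] at this
          exact sub_eq_zero.mp this
        have e2 : -(A + A) + -(A + A) = A := by
          have : -(A + A) + -(A + A) - A = -(A + A + (A + A) + A) := by abel
          rw [hQ5, _root_.neg_zero] at this
          exact sub_eq_zero.mp this
        rw [e1, xo_neg, hxoAA] at hx
        rw [e1, e2, hxoA] at hx2
        exact ⟨by simpa using hx.symm, by simpa using hx2.symm⟩
      · left
        have e1 : (4 : ℕ) • A = -A := by
          rw [← h4, show (4 : ℕ) = 1 + 1 + (1 + 1) by norm_num, add_nsmul, add_nsmul, one_nsmul]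
        have e2 : -A + -A = -(A + A) := by abel
        rw [e1, xo_neg, hxoA] at hx
        rw [e1, e2, xo_neg, hxoAA] at hx2
        exact ⟨by simpa using hx.symm, by simpa using hx2.symm⟩
    have hs : ∀ σ : Qbar ≃ₐ[ℚ] Qbar, σ (x₁ + x₂) = x₁ + x₂ := by
      intro σ
      rcases hperm σ with ⟨h1, h2'⟩ | ⟨h1, h2'⟩
      · rw [map_add, h1, h2']
      · rw [map_add, h1, h2', add_comm]
    have ht : ∀ σ : Qbar ≃ₐ[ℚ] Qbar, σ (x₁ * x₂) = x₁ * x₂ := by
      intro σ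
      rcases hperm σ with ⟨h1, h2'⟩ | ⟨h1, h2'⟩
      · rw [map_mul, h1, h2']
      · rw [map_mul, h1, h2', mul_comm]
    obtain ⟨s, hs'⟩ := exists_rat_of_fixed _ hs
    obtain ⟨t, ht'⟩ := exists_rat_of_fixed _ ht
    exact ⟨s, t, x₁, x₂, hs'.symm, ht'.symm, hne.symm, hB₁, hB₂, hx₂, hx₁⟩

end Fermat.Agent.S51.Torsion

namespace Fermat.Agent.S51.Torsion

open Polynomial WeierstrassCurve WeierstrassCurve.Affine WeierstrassCurve.Affine.Point

/-- Explicit form of `exists_five_cycle_of_not_irreducible`: with `b₂ b₄ b₆ b₈` the images in `ℚ̄`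
of the `b`-invariants of `E`, `D(x) = 4x³ + b₂x² + 2b₄x + b₆` and
`N(x) = x⁴ - b₄x² - 2b₆x - b₈`, there are `x₁ ≠ x₂` with rational sum `s` and product `t`,
`D(x₁), D(x₂) ≠ 0`, `x₂ D(x₁) = N(x₁)` and `x₁ D(x₂) = N(x₂)`. -/
theorem exists_five_cycle_explicit (E : WeierstrassCurve.Affine ℚ) (hΔ : E.Δ ≠ 0)
    (hred : ¬ GaloisRepIsIrreducible (K := AlgebraicClosure ℚ) ℚ E 5) :
    ∃ (s t : ℚ) (x₁ x₂ : AlgebraicClosure ℚ),
      x₁ + x₂ = algebraMap ℚ (AlgebraicClosure ℚ) s ∧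
      x₁ * x₂ = algebraMap ℚ (AlgebraicClosure ℚ) t ∧ x₁ ≠ x₂ ∧
      4 * x₁ ^ 3 + algebraMap ℚ (AlgebraicClosure ℚ) E.b₂ * x₁ ^ 2 +
        2 * algebraMap ℚ (AlgebraicClosure ℚ) E.b₄ * x₁ +
        algebraMap ℚ (AlgebraicClosure ℚ) E.b₆ ≠ 0 ∧
      4 * x₂ ^ 3 + algebraMap ℚ (AlgebraicClosure ℚ) E.b₂ * x₂ ^ 2 +
        2 * algebraMap ℚ (AlgebraicClosure ℚ) E.b₄ * x₂ +
        algebraMap ℚ (AlgebraicClosure ℚ) E.b₆ ≠ 0 ∧
      x₂ * (4 * x₁ ^ 3 + algebraMap ℚ (AlgebraicClosure ℚ) E.b₂ * x₁ ^ 2 +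
        2 * algebraMap ℚ (AlgebraicClosure ℚ) E.b₄ * x₁ +
        algebraMap ℚ (AlgebraicClosure ℚ) E.b₆) =
        x₁ ^ 4 - algebraMap ℚ (AlgebraicClosure ℚ) E.b₄ * x₁ ^ 2 -
          2 * algebraMap ℚ (AlgebraicClosure ℚ) E.b₆ * x₁ -
          algebraMap ℚ (AlgebraicClosure ℚ) E.b₈ ∧
      x₁ * (4 * x₂ ^ 3 + algebraMap ℚ (AlgebraicClosure ℚ) E.b₂ * x₂ ^ 2 +
        2 * algebraMap ℚ (AlgebraicClosure ℚ) E.b₄ * x₂ +
        algebraMap ℚ (AlgebraicClosure ℚ) E.b₆) =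
        x₂ ^ 4 - algebraMap ℚ (AlgebraicClosure ℚ) E.b₄ * x₂ ^ 2 -
          2 * algebraMap ℚ (AlgebraicClosure ℚ) E.b₆ * x₂ -
          algebraMap ℚ (AlgebraicClosure ℚ) E.b₈ := by
  obtain ⟨s, t, x₁, x₂, hs, ht, hne, hB₁, hB₂, h₁, h₂⟩ :=
    exists_five_cycle_of_not_irreducible E hΔ hred
  have e2 : (E⁄(AlgebraicClosure ℚ)).b₂ = algebraMap ℚ (AlgebraicClosure ℚ) E.b₂ :=
    WeierstrassCurve.map_b₂ E _
  have e4 : (E⁄(AlgebraicClosure ℚ)).b₄ = algebraMap ℚ (AlgebraicClosure ℚ) E.b₄ :=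
    WeierstrassCurve.map_b₄ E _
  have e6 : (E⁄(AlgebraicClosure ℚ)).b₆ = algebraMap ℚ (AlgebraicClosure ℚ) E.b₆ :=
    WeierstrassCurve.map_b₆ E _
  have e8 : (E⁄(AlgebraicClosure ℚ)).b₈ = algebraMap ℚ (AlgebraicClosure ℚ) E.b₈ :=
    WeierstrassCurve.map_b₈ E _
  rw [eval_Ψ₂Sq, e2, e4, e6] at hB₁ hB₂ h₁ h₂
  rw [eval_Φ_two, e4, e6, e8] at h₁ h₂
  exact ⟨s, t, x₁, x₂, hs, ht, hne, hB₁, hB₂, h₁, h₂⟩

/-- Explicit form of `exists_rat_root_Ψ₃_of_not_irreducible`. -/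
theorem exists_rat_root_Ψ₃_explicit (E : WeierstrassCurve.Affine ℚ) (hΔ : E.Δ ≠ 0)
    (hred : ¬ GaloisRepIsIrreducible (K := AlgebraicClosure ℚ) ℚ E 3) :
    ∃ x : ℚ, 3 * x ^ 4 + E.b₂ * x ^ 3 + 3 * E.b₄ * x ^ 2 + 3 * E.b₆ * x + E.b₈ = 0 := by
  obtain ⟨x, hx⟩ := exists_rat_root_Ψ₃_of_not_irreducible E hΔ hred
  rw [eval_Ψ₃] at hx
  exact ⟨x, hx⟩

end Fermat.Agent.S51.Torsion
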