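import Mathlib
import Fermat.Prelude.Def_FLTPrelim_ModularRep
import Fermat.Agent.S51.TorsionGalois

set_option autoImplicit false

/-!
# S51, pieces (G)+(T): the final statements `L3`, `L5`

For `W : WeierstrassCurve ℤ` with `Δ ≠ 0`:
* `L3`: if the mod-3 representation is reducible, the 3-division polynomial has a rational root;
* `L5`: if the mod-5 representation is reducible, there are rational `s, t` (the sum and product
  of the `x`-coordinates of `P, 2P` for a point `P` of order 5 spanning a stable line) satisfying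
  the two "2-cycle of the duplication map" equations.
-/

namespace Fermat.Agent.S51.Torsion

open WeierstrassCurve WeierstrassCurve.Affine WeierstrassCurve.Affine.Point

theorem L3 (W : WeierstrassCurve ℤ) (hΔ : W.Δ ≠ 0) (h : ¬ W.ModRepIsIrreducible 3) :
    ∃ x : ℚ, 3 * x ^ 4 + (W.b₂ : ℚ) * x ^ 3 + 3 * (W.b₄ : ℚ) * x ^ 2 + 3 * (W.b₆ : ℚ) * x
      + (W.b₈ : ℚ) = 0 := by
  have hΔ' : (W.map (Int.castRingHom ℚ)).Δ ≠ 0 := by
    rw [WeierstrassCurve.map_Δ]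
    simpa using hΔ
  obtain ⟨x, hx⟩ := exists_rat_root_Ψ₃_explicit (W.map (Int.castRingHom ℚ)) hΔ' h
  rw [WeierstrassCurve.map_b₂, WeierstrassCurve.map_b₄, WeierstrassCurve.map_b₆,
    WeierstrassCurve.map_b₈] at hx
  exact ⟨x, by simpa using hx⟩

theorem L5 (W : WeierstrassCurve ℤ) (hΔ : W.Δ ≠ 0) (h : ¬ W.ModRepIsIrreducible 5) :
    ∃ s t : ℚ, s ^ 2 - 4 * t ≠ 0 ∧
      s ^ 3 - 6 * s * t - (W.b₂ : ℚ) * t - (W.b₄ : ℚ) * s - (W.b₆ : ℚ) = 0 ∧
      s ^ 4 - 8 * s ^ 2 * t + 10 * t ^ 2 - (W.b₂ : ℚ) * s * t - (W.b₄ : ℚ) * s ^ 2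
        - 2 * (W.b₄ : ℚ) * t - 3 * (W.b₆ : ℚ) * s - 2 * (W.b₈ : ℚ) = 0 := by
  have hΔ' : (W.map (Int.castRingHom ℚ)).Δ ≠ 0 := by
    rw [WeierstrassCurve.map_Δ]
    simpa using hΔ
  obtain ⟨s, t, x₁, x₂, hs, ht, hne, hD₁, hD₂, h₁, h₂⟩ :=
    exists_five_cycle_explicit (W.map (Int.castRingHom ℚ)) hΔ' h
  rw [WeierstrassCurve.map_b₂, WeierstrassCurve.map_b₄, WeierstrassCurve.map_b₆] at hD₁ hD₂ h₁ h₂
  rw [WeierstrassCurve.map_b₈] at h₁ h₂
  have hinj : Function.Injective (algebraMap ℚ (AlgebraicClosure ℚ)) :=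
    (algebraMap ℚ (AlgebraicClosure ℚ)).injective
  -- abbreviations in `ℚ̄`
  set φ := algebraMap ℚ (AlgebraicClosure ℚ) with hφ
  set B₂ : AlgebraicClosure ℚ := φ ((Int.castRingHom ℚ) W.b₂) with hB₂
  set B₄ : AlgebraicClosure ℚ := φ ((Int.castRingHom ℚ) W.b₄) with hB₄
  set B₆ : AlgebraicClosure ℚ := φ ((Int.castRingHom ℚ) W.b₆) with hB₆
  set B₈ : AlgebraicClosure ℚ := φ ((Int.castRingHom ℚ) W.b₈) with hB₈
  have hsub : x₁ - x₂ ≠ 0 := sub_ne_zero.mpr hne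
  refine ⟨s, t, ?_, ?_, ?_⟩
  · intro h0
    have : φ (s ^ 2 - 4 * t) = 0 := by rw [h0, _root_.map_zero]
    rw [map_sub, map_pow, map_mul, map_ofNat, ← hs, ← ht] at this
    have h' : (x₁ - x₂) ^ 2 = 0 := by linear_combination this
    exact hsub ((pow_eq_zero_iff (two_ne_zero)).mp h')
  · apply hinj
    rw [_root_.map_zero]
    have key : (φ s ^ 3 - 6 * φ s * φ t - B₂ * φ t - B₄ * φ s - B₆) * (x₁ - x₂) = 0 := by
      rw [← hs, ← ht]
      linear_combination h₂ - h₁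
    have := (mul_eq_zero.mp key).resolve_right hsub
    simpa [hB₂, hB₄, hB₆, map_sub, map_mul, map_pow] using this
  · apply hinj
    rw [_root_.map_zero]
    have key : φ s ^ 4 - 8 * φ s ^ 2 * φ t + 10 * φ t ^ 2 - B₂ * φ s * φ t - B₄ * φ s ^ 2
        - 2 * B₄ * φ t - 3 * B₆ * φ s - 2 * B₈ = 0 := by
      rw [← hs, ← ht]
      linear_combination (-1 : AlgebraicClosure ℚ) * h₁ - h₂
    simpa [hB₂, hB₄, hB₆, hB₈, map_sub, map_mul, map_pow] using key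

end Fermat.Agent.S51.Torsion
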